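/-
GATE-H (S19 → S32), node S19-CLOSURE (helper57): Δ-stable orders in helper5's N0 hypothesis form
(`heq / hint / hsep / hΔ` for `H : Subalgebra ℤ_(ℓ) (M → ℚ̄)`).  This file: vocabulary and the
formal tools (precomposition homs, the two-variable image `T2`, `hΔ` on generators, the action is
a bijection, Galois descent of linear independence, the trace over a stable subgroup, Dedekind
separation).  Mathlib + `S28/RatLocal` (ℤ_(ℓ) is a DVR with fraction field ℚ) only.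
-/
import Mathlib
import Fermat.Agent.S28.RatLocal

set_option autoImplicit false
set_option linter.unusedSectionVars false
set_option linter.unusedVariables false

noncomputable section

namespace Fermat.Agent.GH.Closure

open GaloisRep

/-- `ℚ̄`. -/
local notation "Qb" => AlgebraicClosure ℚ
/-- `G_ℚ`. -/
local notation "GQ" => (AlgebraicClosure ℚ ≃ₐ[ℚ] AlgebraicClosure ℚ)

/-- `ℤ_(ℓ)` as a type. -/
abbrev Rl (ℓ : ℕ) : Type := ↥(ratLocalizedAt ℓ)

section Precomp

variable (S A : Type*) [CommSemiring S] [Semiring A] [Algebra S A] {X Y Z : Type*}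

/-- precomposition with `φ : X → Y` as an algebra hom `(Y → A) → (X → A)`. -/
def precomp (φ : X → Y) : (Y → A) →ₐ[S] (X → A) :=
  AlgHom.pi (fun x => Pi.evalAlgHom S (fun _ => A) (φ x))

@[simp]
theorem precomp_apply (φ : X → Y) (f : Y → A) (x : X) : precomp S A φ f x = f (φ x) := rfl

theorem precomp_comp (φ : X → Y) (ψ : Y → Z) (f : Z → A) :
    precomp S A φ (precomp S A ψ f) = precomp S A (ψ ∘ φ) f := rfl

theorem precomp_injective {φ : X → Y} (hφ : Function.Surjective φ) :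
    Function.Injective (precomp S A φ) := by
  intro f g hfg
  funext y
  obtain ⟨x, rfl⟩ := hφ y
  exact congrFun hfg x

end Precomp

section Defs

variable (ℓ : ℕ) {M : Type*} [AddCommGroup M]

/-- helper5's four binders (N0 `hopf_of_order`) as one structure. -/
structure IsDeltaOrder (act : GQ → M →+ M) (H : Subalgebra (Rl ℓ) (M → Qb)) : Prop where
  heq : ∀ f ∈ H, ∀ (σ : GQ) (x : M), f (act σ x) = σ (f x)
  hint : ∀ f ∈ H, ∀ x : M, IsIntegral (Rl ℓ) (f x)
  hsep : ∀ x y : M, x ≠ y → ∃ f ∈ H, f x ≠ f y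
  hΔ : ∀ f ∈ H, ∃ (n : ℕ) (a b : Fin n → H), ∀ x y : M,
    f (x + y) = ∑ i, ((a i : M → Qb) x) * ((b i : M → Qb) y)

/-- `M` carries a Δ-stable order at `ℓ`. -/
def HasOrder (act : GQ → M →+ M) : Prop :=
  ∃ H : Subalgebra (Rl ℓ) (M → Qb), IsDeltaOrder ℓ act H

end Defs

section TwoVar

variable {ℓ : ℕ} {M M' : Type*}

/-- the image of `H ⊗ H'` in the functions on `M × M'`. -/
def T2 (H : Subalgebra (Rl ℓ) (M → Qb)) (H' : Subalgebra (Rl ℓ) (M' → Qb)) :
    Subalgebra (Rl ℓ) (M × M' → Qb) :=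
  H.map (precomp (Rl ℓ) Qb Prod.fst) ⊔ H'.map (precomp (Rl ℓ) Qb Prod.snd)

/-- `F` is a finite sum of pure tensors (arbitrary finite index type). -/
def Rep2 (H : Subalgebra (Rl ℓ) (M → Qb)) (H' : Subalgebra (Rl ℓ) (M' → Qb))
    (F : M × M' → Qb) : Prop :=
  ∃ (ι : Type) (_ : Fintype ι) (a : ι → H) (b : ι → H'),
    ∀ x y, F (x, y) = ∑ i, ((a i : M → Qb) x) * ((b i : M' → Qb) y)

variable {H : Subalgebra (Rl ℓ) (M → Qb)} {H' : Subalgebra (Rl ℓ) (M' → Qb)}

theorem rep2_iff_fin {F : M × M' → Qb} :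
    Rep2 H H' F ↔ ∃ (n : ℕ) (a : Fin n → H) (b : Fin n → H'),
      ∀ x y, F (x, y) = ∑ i, ((a i : M → Qb) x) * ((b i : M' → Qb) y) := by
  constructor
  · rintro ⟨ι, _, a, b, h⟩
    refine ⟨Fintype.card ι, a ∘ (Fintype.equivFin ι).symm, b ∘ (Fintype.equivFin ι).symm, ?_⟩
    intro x y
    rw [h x y]
    exact (Equiv.sum_comp (Fintype.equivFin ι).symm
      (fun i => ((a i : M → Qb) x) * ((b i : M' → Qb) y))).symm
  · rintro ⟨n, a, b, h⟩
    exact ⟨Fin n, inferInstance, a, b, h⟩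

theorem Rep2.add {F G : M × M' → Qb} (hF : Rep2 H H' F) (hG : Rep2 H H' G) :
    Rep2 H H' (F + G) := by
  obtain ⟨ι, _, a, b, h⟩ := hF
  obtain ⟨κ, _, c, d, h'⟩ := hG
  refine ⟨ι ⊕ κ, inferInstance, Sum.elim a c, Sum.elim b d, ?_⟩
  intro x y
  rw [Pi.add_apply, h x y, h' x y, Fintype.sum_sum_type]
  simp

theorem Rep2.mul {F G : M × M' → Qb} (hF : Rep2 H H' F) (hG : Rep2 H H' G) :
    Rep2 H H' (F * G) := by
  obtain ⟨ι, _, a, b, h⟩ := hF
  obtain ⟨κ, _, c, d, h'⟩ := hG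
  refine ⟨ι × κ, inferInstance, fun p => a p.1 * c p.2, fun p => b p.1 * d p.2, ?_⟩
  intro x y
  rw [Pi.mul_apply, h x y, h' x y, Fintype.sum_prod_type, Finset.sum_mul_sum]
  refine Finset.sum_congr rfl fun i _ => Finset.sum_congr rfl fun j _ => ?_
  simp only [Subalgebra.coe_mul, Pi.mul_apply]
  ring

theorem Rep2.algMap (r : Rl ℓ) : Rep2 H H' (Algebra.algebraMap (R := Rl ℓ) (A := M × M' → Qb) r) := by
  refine ⟨Unit, inferInstance, fun _ => Algebra.algebraMap (R := Rl ℓ) (A := H) r, fun _ => 1, ?_⟩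
  intro x y
  simp [Algebra.algebraMap_eq_smul_one]

theorem Rep2.fst {f : M → Qb} (hf : f ∈ H) : Rep2 H H' (precomp (Rl ℓ) Qb Prod.fst f) :=
  ⟨Unit, inferInstance, fun _ => ⟨f, hf⟩, fun _ => 1, fun x y => by simp⟩

theorem Rep2.snd {f : M' → Qb} (hf : f ∈ H') : Rep2 H H' (precomp (Rl ℓ) Qb Prod.snd f) :=
  ⟨Unit, inferInstance, fun _ => 1, fun _ => ⟨f, hf⟩, fun x y => by simp⟩

theorem mem_T2_iff {F : M × M' → Qb} : F ∈ T2 H H' ↔ Rep2 H H' F := by
  constructor
  · intro hF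
    have hle : T2 H H' ≤
        { carrier := {F | Rep2 H H' F}
          mul_mem' := fun h1 h2 => Rep2.mul h1 h2
          add_mem' := fun h1 h2 => Rep2.add h1 h2
          algebraMap_mem' := fun r => Rep2.algMap r : Subalgebra (Rl ℓ) (M × M' → Qb) } := by
      refine sup_le ?_ ?_
      · rintro _ ⟨f, hf, rfl⟩
        exact Rep2.fst hf
      · rintro _ ⟨f, hf, rfl⟩
        exact Rep2.snd hf
    exact hle hF
  · rintro ⟨ι, _, a, b, h⟩
    have : F = ∑ i, precomp (Rl ℓ) Qb Prod.fst (a i : M → Qb) *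
        precomp (Rl ℓ) Qb Prod.snd (b i : M' → Qb) := by
      funext p
      obtain ⟨x, y⟩ := p
      rw [h x y, Finset.sum_apply]
      rfl
    rw [this]
    refine Subalgebra.sum_mem _ fun i _ => Subalgebra.mul_mem _ ?_ ?_
    · exact (le_sup_left : _ ≤ T2 H H') ⟨_, (a i).2, rfl⟩
    · exact (le_sup_right : _ ≤ T2 H H') ⟨_, (b i).2, rfl⟩

end TwoVar

end Fermat.Agent.GH.Closure
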