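/-
GATE-H, node S19-CLOSURE (helper57): tools for Δ-stable orders —
`hΔ` through `T2` and on generators; the action is by bijections; Galois descent of linear
independence (ℚ-independent equivariant functions are ℚ̄-independent); fixed + integral ⟹ in ℤ_(ℓ);
the trace over a stable finite subgroup maps `H` to `H`; Dedekind separation of fibre sums.
-/
import Fermat.Agent.GH.Closure.Basic

set_option autoImplicit false
set_option linter.unusedSectionVars false
set_option linter.unusedVariables false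

noncomputable section

namespace Fermat.Agent.GH.Closure

open GaloisRep

local notation "Qb" => AlgebraicClosure ℚ
local notation "GQ" => (AlgebraicClosure ℚ ≃ₐ[ℚ] AlgebraicClosure ℚ)

section Delta

variable {ℓ : ℕ} {M : Type*} [AddCommGroup M]

/-- `f ↦ ((x, y) ↦ f (x + y))` as an algebra hom. -/
def addHom (ℓ : ℕ) (M : Type*) [AddCommGroup M] : (M → Qb) →ₐ[Rl ℓ] (M × M → Qb) :=
  precomp (Rl ℓ) Qb (fun p : M × M => p.1 + p.2)

@[simp]
theorem addHom_apply (f : M → Qb) (x y : M) : addHom ℓ M f (x, y) = f (x + y) := rfl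

theorem hΔ_iff_T2 {H : Subalgebra (Rl ℓ) (M → Qb)} :
    (∀ f ∈ H, ∃ (n : ℕ) (a b : Fin n → H), ∀ x y : M,
      f (x + y) = ∑ i, ((a i : M → Qb) x) * ((b i : M → Qb) y)) ↔
    H ≤ (T2 H H).comap (addHom ℓ M) := by
  constructor
  · intro h f hf
    rw [Subalgebra.mem_comap, mem_T2_iff, rep2_iff_fin]
    obtain ⟨n, a, b, hab⟩ := h f hf
    exact ⟨n, a, b, fun x y => hab x y⟩
  · intro h f hf
    have := h hf
    rw [Subalgebra.mem_comap, mem_T2_iff, rep2_iff_fin] at this
    obtain ⟨n, a, b, hab⟩ := this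
    exact ⟨n, a, b, fun x y => hab x y⟩

/-- `hΔ` may be checked on algebra generators. -/
theorem hΔ_of_adjoin {H : Subalgebra (Rl ℓ) (M → Qb)} {S : Set (M → Qb)}
    (hS : H = Algebra.adjoin (Rl ℓ) S) (h : ∀ s ∈ S, addHom ℓ M s ∈ T2 H H) :
    ∀ f ∈ H, ∃ (n : ℕ) (a b : Fin n → H), ∀ x y : M,
      f (x + y) = ∑ i, ((a i : M → Qb) x) * ((b i : M → Qb) y) := by
  rw [hΔ_iff_T2]
  conv_lhs => rw [hS]
  exact Algebra.adjoin_le fun s hs => h s hs

end Delta

section Action

variable {ℓ : ℕ} {M : Type*} [AddCommGroup M] {act : GQ → M →+ M}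
  {H : Subalgebra (Rl ℓ) (M → Qb)}

theorem IsDeltaOrder.act_injective (hH : IsDeltaOrder ℓ act H) (σ : GQ) :
    Function.Injective (act σ) := by
  intro x y hxy
  by_contra hne
  obtain ⟨f, hf, hfxy⟩ := hH.hsep x y hne
  apply hfxy
  have h1 := hH.heq f hf σ x
  have h2 := hH.heq f hf σ y
  rw [hxy] at h1
  exact σ.injective (h1.symm.trans h2)

theorem IsDeltaOrder.act_bijective [Finite M] (hH : IsDeltaOrder ℓ act H) (σ : GQ) :
    Function.Bijective (act σ) :=
  Finite.injective_iff_bijective.mp (hH.act_injective σ)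

theorem IsDeltaOrder.act_mul (hH : IsDeltaOrder ℓ act H) (σ τ : GQ) (x : M) :
    act (σ * τ) x = act σ (act τ x) := by
  by_contra hne
  obtain ⟨f, hf, hfxy⟩ := hH.hsep _ _ hne
  apply hfxy
  rw [hH.heq f hf, hH.heq f hf, hH.heq f hf]
  rfl

theorem IsDeltaOrder.act_one (hH : IsDeltaOrder ℓ act H) (x : M) : act 1 x = x := by
  by_contra hne
  obtain ⟨f, hf, hfxy⟩ := hH.hsep _ _ hne
  apply hfxy
  rw [hH.heq f hf]
  rfl

end Action

section Fixed

theorem isGalois_Qb : IsGalois ℚ Qb := by
  have h1 : Algebra.IsAlgebraic ℚ Qb := AlgebraicClosure.isAlgebraic ℚ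
  have h2 : IsAlgClosure ℚ Qb := ⟨inferInstance, h1⟩
  have h3 : Normal ℚ Qb := IsAlgClosure.normal ℚ Qb
  have h4 : Algebra.IsSeparable ℚ Qb := inferInstance
  exact ⟨⟩

/-- the fixed field of `G_ℚ` is `ℚ`. -/
theorem exists_rat_of_fixed {c : Qb} (hfix : ∀ σ : GQ, σ c = c) :
    ∃ q : ℚ, algebraMap ℚ Qb q = c := by
  have := isGalois_Qb
  exact (InfiniteGalois.mem_range_algebraMap_iff_fixed (k := ℚ) (K := Qb) c).2 hfix

variable (ℓ : ℕ) [Fact ℓ.Prime]

/-- an element of `ℚ̄` fixed by `G_ℚ` and integral over `ℤ_(ℓ)` lies in `ℤ_(ℓ)`. -/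
theorem exists_eq_algebraMap_of_fixed_of_isIntegral {c : Qb} (hfix : ∀ σ : GQ, σ c = c)
    (hint : IsIntegral (Rl ℓ) c) : ∃ r : Rl ℓ, algebraMap (Rl ℓ) Qb r = c := by
  obtain ⟨q, rfl⟩ := exists_rat_of_fixed hfix
  have hq : IsIntegral (Rl ℓ) q :=
    (isIntegral_algebraMap_iff (algebraMap ℚ Qb).injective).1 hint
  obtain ⟨r, hr⟩ := IsIntegrallyClosed.isIntegral_iff.1 hq
  exact ⟨r, by rw [← hr]; exact (IsScalarTower.algebraMap_apply (Rl ℓ) ℚ Qb r)⟩

end Fixed

section Descent

variable {M : Type*} {ι : Type*}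

/-- **Galois descent of linear independence.**  `act σ` surjective for every `σ`; a family of
equivariant functions `M → ℚ̄` which is ℚ-linearly independent is ℚ̄-linearly independent. -/
theorem linearIndependent_of_equivariant (act : GQ → M → M)
    (hsurj : ∀ σ, Function.Surjective (act σ)) (v : ι → M → Qb)
    (hv : ∀ i (σ : GQ) x, v i (act σ x) = σ (v i x))
    (hind : LinearIndependent ℚ v) : LinearIndependent Qb v := by
  classical
  rw [linearIndependent_iff']
  -- strong induction on the size of the support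
  suffices h : ∀ (n : ℕ) (s : Finset ι) (c : ι → Qb), s.card = n →
      ∑ i ∈ s, c i • v i = 0 → ∀ i ∈ s, c i = 0 from fun s c hs i hi => h s.card s c rfl hs i hi
  intro n
  induction n using Nat.strong_induction_on with
  | _ n ih =>
    intro s c hcard hsum
    by_contra hcon
    push Not at hcon
    obtain ⟨i₀, hi₀, hc₀⟩ := hcon
    -- normalise `c i₀ = 1`
    set d : ι → Qb := fun i => c i / c i₀ with hd
    have hd₀ : d i₀ = 1 := by simp [hd, hc₀]
    have hdsum : ∑ i ∈ s, d i • v i = 0 := by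
      have : ∑ i ∈ s, d i • v i = (c i₀)⁻¹ • ∑ i ∈ s, c i • v i := by
        rw [Finset.smul_sum]
        refine Finset.sum_congr rfl fun i _ => ?_
        rw [smul_smul, hd]
        congr 1
        field_simp
      rw [this, hsum, smul_zero]
    -- every `d i` is fixed by Galois
    have hfix : ∀ σ : GQ, ∀ i ∈ s, σ (d i) = d i := by
      intro σ
      have hrel : ∑ i ∈ s.erase i₀, (σ (d i) - d i) • v i = 0 := by
        have h1 : ∑ i ∈ s, σ (d i) • v i = 0 := by
          funext z
          obtain ⟨w, rfl⟩ := hsurj σ z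
          have h2 := congrFun hdsum w
          simp only [Finset.sum_apply, Pi.smul_apply, smul_eq_mul, Pi.zero_apply] at h2 ⊢
          have h3 := congrArg σ h2
          rw [map_sum, map_zero] at h3
          rw [← h3]
          refine Finset.sum_congr rfl fun i _ => ?_
          rw [map_mul, hv]
        have h4 : ∑ i ∈ s, (σ (d i) - d i) • v i = 0 := by
          simp only [sub_smul, Finset.sum_sub_distrib, h1, hdsum, sub_zero]
        rw [← Finset.add_sum_erase s _ hi₀] at h4
        rw [hd₀, map_one, sub_self, zero_smul, zero_add] at h4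
        exact h4
      have hlt : (s.erase i₀).card < n := by
        rw [← hcard]
        exact Finset.card_erase_lt_of_mem hi₀
      intro i hi
      by_cases hii : i = i₀
      · rw [hii, hd₀, map_one]
      · have := ih _ hlt (s.erase i₀) (fun i => σ (d i) - d i) rfl hrel i
          (Finset.mem_erase.2 ⟨hii, hi⟩)
        exact sub_eq_zero.1 this
    -- so the `d i` are rational
    have hq : ∀ i ∈ s, ∃ q : ℚ, algebraMap ℚ Qb q = d i := fun i hi =>
      exists_rat_of_fixed (fun σ => hfix σ i hi)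
    choose! q hq using hq
    have hqsum : ∑ i ∈ s, q i • v i = 0 := by
      rw [← hdsum]
      refine Finset.sum_congr rfl fun i hi => ?_
      rw [← hq i hi, algebraMap_smul]
    have := linearIndependent_iff'.1 hind s q hqsum i₀ hi₀
    have h1 : d i₀ = 0 := by rw [← hq i₀ hi₀, this, map_zero]
    rw [hd₀] at h1
    exact one_ne_zero h1

end Descent

end Fermat.Agent.GH.Closure
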