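/-
GATE-H, node S19-CLOSURE (helper57): Δ-stable orders restrict to Galois-stable SUBGROUPS (more
generally along equivariant injective additive maps, e.g. isomorphisms) and exist on PRODUCTS.
-/
import Fermat.Agent.GH.Closure.Tools

set_option autoImplicit false
set_option linter.unusedSectionVars false
set_option linter.unusedVariables false

noncomputable section

namespace Fermat.Agent.GH.Closure

open GaloisRep

local notation "Qb" => AlgebraicClosure ℚ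
local notation "GQ" => (AlgebraicClosure ℚ ≃ₐ[ℚ] AlgebraicClosure ℚ)

section Sub

variable {ℓ : ℕ} {M N : Type*} [AddCommGroup M] [AddCommGroup N]
  {act : GQ → M →+ M} {actN : GQ → N →+ N} {H : Subalgebra (Rl ℓ) (M → Qb)}

/-- restriction of a Δ-stable order along an equivariant injective additive map. -/
theorem IsDeltaOrder.restrict (hH : IsDeltaOrder ℓ act H) (j : N →+ M)
    (hj : Function.Injective j) (hjeq : ∀ (σ : GQ) (n : N), j (actN σ n) = act σ (j n)) :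
    IsDeltaOrder ℓ actN (H.map (precomp (Rl ℓ) Qb j)) where
  heq := by
    rintro _ ⟨f, hf, rfl⟩ σ n
    show f (j (actN σ n)) = σ (f (j n))
    rw [hjeq, hH.heq f hf]
  hint := by
    rintro _ ⟨f, hf, rfl⟩ n
    exact hH.hint f hf (j n)
  hsep := by
    intro n n' hne
    obtain ⟨f, hf, hfn⟩ := hH.hsep (j n) (j n') (fun h => hne (hj h))
    exact ⟨precomp (Rl ℓ) Qb j f, ⟨f, hf, rfl⟩, hfn⟩
  hΔ := by
    rintro _ ⟨f, hf, rfl⟩
    obtain ⟨n, a, b, hab⟩ := hH.hΔ f hf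
    refine ⟨n, fun i => ⟨precomp (Rl ℓ) Qb j (a i), ⟨a i, (a i).2, rfl⟩⟩,
      fun i => ⟨precomp (Rl ℓ) Qb j (b i), ⟨b i, (b i).2, rfl⟩⟩, ?_⟩
    intro x y
    show f (j (x + y)) = ∑ i, (a i : M → Qb) (j x) * (b i : M → Qb) (j y)
    rw [map_add]
    exact hab (j x) (j y)

/-- **SUB / ISO.** -/
theorem HasOrder.of_injective (h : HasOrder ℓ act) (j : N →+ M)
    (hj : Function.Injective j) (hjeq : ∀ (σ : GQ) (n : N), j (actN σ n) = act σ (j n)) :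
    HasOrder ℓ actN := by
  obtain ⟨H, hH⟩ := h
  exact ⟨_, hH.restrict j hj hjeq⟩

end Sub

section Prod

variable {ℓ : ℕ} {M₁ M₂ : Type*} [AddCommGroup M₁] [AddCommGroup M₂]
  {act₁ : GQ → M₁ →+ M₁} {act₂ : GQ → M₂ →+ M₂}
  {H₁ : Subalgebra (Rl ℓ) (M₁ → Qb)} {H₂ : Subalgebra (Rl ℓ) (M₂ → Qb)}

/-- the product action. -/
def actProd (act₁ : GQ → M₁ →+ M₁) (act₂ : GQ → M₂ →+ M₂) : GQ → (M₁ × M₂) →+ (M₁ × M₂) :=
  fun σ => (act₁ σ).prodMap (act₂ σ)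

@[simp]
theorem actProd_apply (σ : GQ) (p : M₁ × M₂) :
    actProd act₁ act₂ σ p = (act₁ σ p.1, act₂ σ p.2) := rfl

theorem IsDeltaOrder.prod (h₁ : IsDeltaOrder ℓ act₁ H₁) (h₂ : IsDeltaOrder ℓ act₂ H₂) :
    IsDeltaOrder ℓ (actProd act₁ act₂) (T2 H₁ H₂) where
  heq := by
    intro F hF σ p
    obtain ⟨ι, _, a, b, hab⟩ := mem_T2_iff.1 hF
    obtain ⟨x, y⟩ := p
    rw [actProd_apply, hab, hab, map_sum]
    refine Finset.sum_congr rfl fun i _ => ?_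
    rw [map_mul, h₁.heq _ (a i).2, h₂.heq _ (b i).2]
  hint := by
    intro F hF p
    obtain ⟨ι, _, a, b, hab⟩ := mem_T2_iff.1 hF
    obtain ⟨x, y⟩ := p
    rw [hab]
    exact IsIntegral.sum _ fun i _ => (h₁.hint _ (a i).2 x).mul (h₂.hint _ (b i).2 y)
  hsep := by
    rintro ⟨x, y⟩ ⟨x', y'⟩ hne
    by_cases hx : x = x'
    · have hy : y ≠ y' := fun h => hne (by rw [hx, h])
      obtain ⟨f, hf, hfy⟩ := h₂.hsep y y' hy
      exact ⟨precomp (Rl ℓ) Qb Prod.snd f, (le_sup_right : _ ≤ T2 H₁ H₂) ⟨f, hf, rfl⟩, hfy⟩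
    · obtain ⟨f, hf, hfx⟩ := h₁.hsep x x' hx
      exact ⟨precomp (Rl ℓ) Qb Prod.fst f, (le_sup_left : _ ≤ T2 H₁ H₂) ⟨f, hf, rfl⟩, hfx⟩
  hΔ := by
    rw [hΔ_iff_T2]
    refine sup_le ?_ ?_
    · rintro _ ⟨f, hf, rfl⟩
      rw [Subalgebra.mem_comap, mem_T2_iff]
      obtain ⟨n, a, b, hab⟩ := h₁.hΔ f hf
      refine ⟨Fin n, inferInstance,
        fun i => ⟨precomp (Rl ℓ) Qb Prod.fst (a i), (le_sup_left : _ ≤ T2 H₁ H₂) ⟨a i, (a i).2, rfl⟩⟩,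
        fun i => ⟨precomp (Rl ℓ) Qb Prod.fst (b i), (le_sup_left : _ ≤ T2 H₁ H₂) ⟨b i, (b i).2, rfl⟩⟩,
        ?_⟩
      intro p q
      exact hab p.1 q.1
    · rintro _ ⟨f, hf, rfl⟩
      rw [Subalgebra.mem_comap, mem_T2_iff]
      obtain ⟨n, a, b, hab⟩ := h₂.hΔ f hf
      refine ⟨Fin n, inferInstance,
        fun i => ⟨precomp (Rl ℓ) Qb Prod.snd (a i), (le_sup_right : _ ≤ T2 H₁ H₂) ⟨a i, (a i).2, rfl⟩⟩,
        fun i => ⟨precomp (Rl ℓ) Qb Prod.snd (b i), (le_sup_right : _ ≤ T2 H₁ H₂) ⟨b i, (b i).2, rfl⟩⟩,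
        ?_⟩
      intro p q
      exact hab p.2 q.2

/-- **PRODUCT.** -/
theorem HasOrder.prod (h₁ : HasOrder ℓ act₁) (h₂ : HasOrder ℓ act₂) :
    HasOrder ℓ (actProd act₁ act₂) := by
  obtain ⟨H₁, hH₁⟩ := h₁
  obtain ⟨H₂, hH₂⟩ := h₂
  exact ⟨_, hH₁.prod hH₂⟩

end Prod

end Fermat.Agent.GH.Closure
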