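/-
GATE-H, node S19-CLOSURE (helper57): Δ-stable orders pass to QUOTIENTS `π : M ↠ M''` by
Galois-stable subgroups: `H'' := {g | g ∘ π ∈ H}`.  Separation by the trace + Dedekind; `hΔ''` by
SATURATION: the `Kr`-invariant part of `H` is a saturated submodule of the finite free ℤ_(ℓ)-module
`H`, an adapted (Smith) basis is ℚ̄-linearly independent as a family of functions (Galois
descent), so a two-variable sum of pure tensors which is `Kr`-invariant in the first variable only
involves the invariant basis vectors.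
-/
import Fermat.Agent.GH.Closure.Trace
import Fermat.Agent.GH.Closure.SubProd

set_option autoImplicit false
set_option linter.unusedSectionVars false
set_option linter.unusedVariables false

noncomputable section

namespace Fermat.Agent.GH.Closure

open GaloisRep Module

local notation "Qb" => AlgebraicClosure ℚ
local notation "GQ" => (AlgebraicClosure ℚ ≃ₐ[ℚ] AlgebraicClosure ℚ)

section Inv

variable {ℓ : ℕ} {M : Type*} [AddCommGroup M]

/-- the `Kr`-invariant functions, as a subalgebra. -/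
def invAlg (ℓ : ℕ) (Kr : AddSubgroup M) : Subalgebra (Rl ℓ) (M → Qb) where
  carrier := {f | ∀ x, ∀ k ∈ Kr, f (x + k) = f x}
  mul_mem' := by
    intro f g hf hg x k hk
    rw [Pi.mul_apply, Pi.mul_apply, hf x k hk, hg x k hk]
  add_mem' := by
    intro f g hf hg x k hk
    rw [Pi.add_apply, Pi.add_apply, hf x k hk, hg x k hk]
  algebraMap_mem' := by
    intro r x k hk
    rfl

theorem mem_invAlg {Kr : AddSubgroup M} {f : M → Qb} :
    f ∈ invAlg ℓ Kr ↔ ∀ x, ∀ k ∈ Kr, f (x + k) = f x := Iff.rfl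

end Inv

section TorsionFree

variable (ℓ : ℕ) {M : Type*}

theorem algebraMap_Rl_injective : Function.Injective (algebraMap (Rl ℓ) Qb) := by
  intro a b hab
  have h1 : algebraMap (Rl ℓ) Qb a = algebraMap ℚ Qb (a : ℚ) := rfl
  have h2 : algebraMap (Rl ℓ) Qb b = algebraMap ℚ Qb (b : ℚ) := rfl
  rw [h1, h2] at hab
  exact Subtype.ext ((algebraMap ℚ Qb).injective hab)

theorem isTorsionFree_subalgebra (H : Subalgebra (Rl ℓ) (M → Qb)) :
    Module.IsTorsionFree (Rl ℓ) H := by
  constructor
  intro r hr h h' hh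
  have hr0 : r ≠ 0 := hr.ne_zero
  have hr1 : algebraMap (Rl ℓ) Qb r ≠ 0 := by
    intro h0
    exact hr0 (algebraMap_Rl_injective ℓ (by rw [h0, map_zero]))
  apply Subtype.ext
  funext x
  have := congrFun (congrArg Subtype.val hh) x
  simp only [Algebra.smul_def] at this
  exact mul_left_cancel₀ hr1 this

end TorsionFree

section Key

variable {ℓ : ℕ} [Fact ℓ.Prime] {M : Type*} [AddCommGroup M] {act : GQ → M →+ M}
  {H : Subalgebra (Rl ℓ) (M → Qb)}

/-- **KEY (saturation).**  A sum of pure tensors in `H ⊗ H'` which is `Kr`-invariant in the first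
variable is a sum of pure tensors in `(H ⊓ invariants) ⊗ H'`. -/
theorem IsDeltaOrder.rep2_inv [Finite M] [Module.Finite (Rl ℓ) H] (hH : IsDeltaOrder ℓ act H)
    (Kr : AddSubgroup M) (hK : ∀ (σ : GQ), ∀ k ∈ Kr, act σ k ∈ Kr)
    {M' : Type*} (H' : Subalgebra (Rl ℓ) (M' → Qb)) {F : M × M' → Qb}
    (hF : Rep2 H H' F) (hinv : ∀ x y, ∀ k ∈ Kr, F (x + k, y) = F (x, y)) :
    Rep2 (H ⊓ invAlg ℓ Kr) H' F := by
  classical
  have : Fintype Kr := Fintype.ofFinite Kr
  have : Module.IsTorsionFree (Rl ℓ) H := isTorsionFree_subalgebra ℓ H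
  have : Module.Free (Rl ℓ) H := Module.free_of_finite_type_torsion_free'
  -- the invariant part as a submodule of `H`
  let 𝓘 : Submodule (Rl ℓ) H :=
    Submodule.comap (Subalgebra.val H).toLinearMap (Subalgebra.toSubmodule (invAlg ℓ Kr))
  have h𝓘 : ∀ h : H, h ∈ 𝓘 ↔ (h : M → Qb) ∈ invAlg ℓ Kr := fun h => Iff.rfl
  obtain ⟨n, snf⟩ := Submodule.smithNormalForm (Module.Free.chooseBasis (Rl ℓ) H) 𝓘
  set e : Module.Free.ChooseBasisIndex (Rl ℓ) H → (M → Qb) := fun i => ((snf.bM i : H) : M → Qb)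
    with he
  -- ℚ̄-linear independence of the basis as functions
  have hsurj : ∀ σ : GQ, Function.Surjective (fun x => act σ x) := fun σ =>
    (hH.act_bijective σ).2
  have hindR : LinearIndependent (Rl ℓ) e := by
    have h1 : LinearIndependent (Rl ℓ) (fun i => snf.bM i) := snf.bM.linearIndependent
    exact h1.map' (Subalgebra.val H).toLinearMap
      (LinearMap.ker_eq_bot.2 (fun a b hab => Subtype.ext hab))
  have hindQ : LinearIndependent ℚ e :=
    (LinearIndependent.iff_fractionRing (Rl ℓ) ℚ).1 hindR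
  have hind : LinearIndependent Qb e :=
    linearIndependent_of_equivariant (fun σ x => act σ x) hsurj e
      (fun i σ x => hH.heq _ (snf.bM i).2 σ x) hindQ
  -- the basis vectors in the range of `f` are invariant
  have hs2 : ∀ s : Fin n, e (snf.f s) ∈ invAlg ℓ Kr := by
    intro s
    have h1 : (snf.bN s : H) ∈ 𝓘 := (snf.bN s).2
    rw [snf.snf s, h𝓘] at h1
    have ha : snf.a s ≠ 0 := by
      intro h0
      have h2 : (snf.bN s : H) = 0 := by rw [snf.snf s, h0, zero_smul]
      have h3 : snf.bN s = 0 := Subtype.ext h2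
      exact snf.bN.ne_zero s h3
    have ha1 : algebraMap (Rl ℓ) Qb (snf.a s) ≠ 0 := fun h0 =>
      ha (algebraMap_Rl_injective ℓ (by rw [h0, map_zero]))
    intro x k hk
    have h4 := h1 x k hk
    simp only [Subalgebra.coe_smul, Pi.smul_apply, Algebra.smul_def] at h4
    exact mul_left_cancel₀ ha1 h4
  -- coordinates of invariant elements vanish off the range of `f`
  have hs3 : ∀ h : H, (h : M → Qb) ∈ invAlg ℓ Kr → ∀ i, i ∉ Set.range snf.f →
      snf.bM.repr h i = 0 := by
    intro h hh i hi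
    exact snf.repr_eq_zero_of_notMem_range ⟨h, (h𝓘 h).2 hh⟩ hi
  -- (INV): an invariant ℚ̄-combination of the basis only involves the range of `f`
  have hINV : ∀ c : Module.Free.ChooseBasisIndex (Rl ℓ) H → Qb,
      (∑ i, c i • e i) ∈ invAlg ℓ Kr → ∀ i, i ∉ Set.range snf.f → c i = 0 := by
    intro c hc i hi
    set φ : M → Qb := ∑ i, c i • e i with hφ
    -- `card • φ = trK φ = ∑ c_j • trK e_j`
    have h1 : (Fintype.card Kr : Qb) • φ = ∑ j, c j • trK Kr (e j) := by
      have : trK Kr φ = (Fintype.card Kr : Qb) • φ := by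
        funext x
        rw [trK_of_inv Kr hc x]
        rfl
      rw [← this, hφ, map_sum]
      refine Finset.sum_congr rfl fun j _ => ?_
      rw [map_smul]
    -- expand `trK e_j` in the basis
    obtain ⟨ρ, hρ, hρ0⟩ : ∃ ρ : Module.Free.ChooseBasisIndex (Rl ℓ) H →
        Module.Free.ChooseBasisIndex (Rl ℓ) H → Qb,
        (∀ j, trK Kr (e j) = ∑ i, ρ j i • e i) ∧ ∀ j i, i ∉ Set.range snf.f → ρ j i = 0 := by
      refine ⟨fun j i => algebraMap (Rl ℓ) Qb
        (snf.bM.repr ⟨trK Kr (e j), hH.trK_mem Kr hK (snf.bM j).2⟩ i), ?_, ?_⟩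
      · intro j
        set t : H := ⟨trK Kr (e j), hH.trK_mem Kr hK (snf.bM j).2⟩ with ht
        have h3 : (t : M → Qb) = ((∑ i, snf.bM.repr t i • snf.bM i : H) : M → Qb) := by
          rw [snf.bM.sum_repr t]
        rw [show trK Kr (e j) = (t : M → Qb) from rfl, h3]
        rw [← Subalgebra.coe_val, map_sum]
        refine Finset.sum_congr rfl fun i _ => ?_
        funext x
        simp [he, Algebra.smul_def]
        left
        rfl
      · intro j i hi
        show algebraMap (Rl ℓ) Qb _ = 0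
        rw [hs3 _ (fun x k hk => trK_add_mem Kr (e j) x hk) i hi, map_zero]
    -- compare coefficients at `i`
    have h4 : ∑ i', ((Fintype.card Kr : Qb) * c i') • e i' =
        ∑ i', (∑ j, c j * ρ j i') • e i' := by
      have h5 : (Fintype.card Kr : Qb) • φ = ∑ i', ((Fintype.card Kr : Qb) * c i') • e i' := by
        rw [hφ, Finset.smul_sum]
        refine Finset.sum_congr rfl fun i' _ => ?_
        rw [smul_smul]
      rw [← h5, h1]
      simp_rw [hρ, Finset.smul_sum, smul_smul]
      rw [Finset.sum_comm]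
      refine Finset.sum_congr rfl fun i' _ => ?_
      rw [Finset.sum_smul]
    have h6 := Fintype.linearIndependent_iff.1 hind
      (fun i' => (Fintype.card Kr : Qb) * c i' - ∑ j, c j * ρ j i') (by
        simp only [sub_smul, Finset.sum_sub_distrib]
        rw [h4, sub_self]) i
    have h7 : ∑ j, c j * ρ j i = 0 := by
      refine Finset.sum_eq_zero fun j _ => ?_
      rw [hρ0 j i hi, mul_zero]
    rw [h7, sub_zero] at h6
    have hcard : (Fintype.card Kr : Qb) ≠ 0 := by
      have : Fintype.card Kr ≠ 0 := Fintype.card_ne_zero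
      exact_mod_cast this
    exact (mul_eq_zero.1 h6).resolve_left hcard
  -- main: rewrite `F` through the basis in the first variable
  obtain ⟨ι, _, a, b, hab⟩ := hF
  -- `B i := ∑_t (repr (a t) i) • b t`
  set B : Module.Free.ChooseBasisIndex (Rl ℓ) H → H' := fun i =>
    ∑ t, snf.bM.repr (a t) i • b t with hB
  have hFB : ∀ x y, F (x, y) = ∑ i, e i x * ((B i : H') : M' → Qb) y := by
    intro x y
    rw [hab x y]
    have h1 : ∀ t, ((a t : H) : M → Qb) x =
        ∑ i, algebraMap (Rl ℓ) Qb (snf.bM.repr (a t) i) * e i x := by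
      intro t
      have h3 : ((a t : H) : M → Qb) = ((∑ i, snf.bM.repr (a t) i • snf.bM i : H) : M → Qb) := by
        rw [snf.bM.sum_repr (a t)]
      rw [h3, ← Subalgebra.coe_val, map_sum, Finset.sum_apply]
      refine Finset.sum_congr rfl fun i _ => ?_
      simp [he, Algebra.smul_def]
    simp_rw [h1, Finset.sum_mul]
    rw [Finset.sum_comm]
    refine Finset.sum_congr rfl fun i _ => ?_
    rw [hB]
    have h4 : ((∑ t, snf.bM.repr (a t) i • b t : H') : M' → Qb) y =
        ∑ t, algebraMap (Rl ℓ) Qb (snf.bM.repr (a t) i) * ((b t : H') : M' → Qb) y := by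
      rw [← Subalgebra.coe_val, map_sum, Finset.sum_apply]
      refine Finset.sum_congr rfl fun t _ => ?_
      simp [Algebra.smul_def]
    rw [h4, Finset.mul_sum]
    refine Finset.sum_congr rfl fun t _ => ?_
    ring
  -- the coefficients `B i y` vanish off the range of `f`
  have hB0 : ∀ i, i ∉ Set.range snf.f → ∀ y, ((B i : H') : M' → Qb) y = 0 := by
    intro i hi y
    refine hINV (fun i => ((B i : H') : M' → Qb) y) ?_ i hi
    intro x k hk
    have h1 : ∀ z, (∑ i, ((B i : H') : M' → Qb) y • e i) z = F (z, y) := by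
      intro z
      rw [hFB z y, Finset.sum_apply]
      refine Finset.sum_congr rfl fun i _ => ?_
      simp [mul_comm]
    rw [h1, h1, hinv x y k hk]
  refine ⟨Fin n, inferInstance, fun s => ⟨e (snf.f s), ⟨(snf.bM (snf.f s)).2, hs2 s⟩⟩,
    fun s => B (snf.f s), ?_⟩
  intro x y
  rw [hFB x y]
  have h1 : ∑ i, e i x * ((B i : H') : M' → Qb) y =
      ∑ i ∈ Finset.univ.map snf.f, e i x * ((B i : H') : M' → Qb) y := by
    symm
    refine Finset.sum_subset (Finset.subset_univ _) fun i _ hi => ?_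
    rw [hB0 i (fun ⟨s, hs⟩ => hi (Finset.mem_map.2 ⟨s, Finset.mem_univ _, hs⟩)) y, mul_zero]
  rw [h1, Finset.sum_map]

end Key

section Quot

variable {ℓ : ℕ} [Fact ℓ.Prime] {M M'' : Type*} [AddCommGroup M] [AddCommGroup M'']
  {act : GQ → M →+ M} {act'' : GQ → M'' →+ M''} {H : Subalgebra (Rl ℓ) (M → Qb)}

theorem Rep2.swap {M₁ M₂ : Type*} {H₁ : Subalgebra (Rl ℓ) (M₁ → Qb)}
    {H₂ : Subalgebra (Rl ℓ) (M₂ → Qb)} {F : M₁ × M₂ → Qb} (h : Rep2 H₁ H₂ F) :
    Rep2 H₂ H₁ (fun p => F (p.2, p.1)) := by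
  obtain ⟨ι, _, a, b, hab⟩ := h
  refine ⟨ι, inferInstance, b, a, fun x y => ?_⟩
  show F (y, x) = _
  rw [hab y x]
  exact Finset.sum_congr rfl fun i _ => mul_comm _ _

theorem ker_stable (π : M →+ M'') (hπeq : ∀ (σ : GQ) (x : M), π (act σ x) = act'' σ (π x))
    (σ : GQ) : ∀ k ∈ π.ker, act σ k ∈ π.ker := by
  intro k hk
  rw [AddMonoidHom.mem_ker] at hk ⊢
  rw [hπeq, hk, map_zero]

/-- **QUOTIENT.**  (`Module.Finite` of the order is a hypothesis here; it follows from the four
binders — helper5's N0 — and is preserved, see `finite_comap`.) -/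
theorem IsDeltaOrder.quot [Finite M] [Module.Finite (Rl ℓ) H] (hH : IsDeltaOrder ℓ act H)
    (π : M →+ M'') (hπ : Function.Surjective π)
    (hπeq : ∀ (σ : GQ) (x : M), π (act σ x) = act'' σ (π x)) :
    IsDeltaOrder ℓ act'' (H.comap (precomp (Rl ℓ) Qb π)) where
  heq := by
    intro g hg σ z
    obtain ⟨x, rfl⟩ := hπ z
    have h1 : precomp (Rl ℓ) Qb π g ∈ H := hg
    have := hH.heq _ h1 σ x
    rw [← hπeq]
    exact this
  hint := by
    intro g hg z
    obtain ⟨x, rfl⟩ := hπ z
    have h1 : precomp (Rl ℓ) Qb π g ∈ H := hg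
    exact hH.hint _ h1 x
  hsep := by
    intro z z' hne
    have : Fintype π.ker := Fintype.ofFinite _
    obtain ⟨x, rfl⟩ := hπ z
    obtain ⟨y, rfl⟩ := hπ z'
    have hxy : x - y ∉ π.ker := by
      intro h
      rw [AddMonoidHom.mem_ker, map_sub, sub_eq_zero] at h
      exact hne h
    obtain ⟨f, hf, hfne⟩ := hH.exists_trK_ne π.ker hxy
    have hmem := hH.trK_mem π.ker (ker_stable π hπeq) hf
    obtain ⟨g, hg⟩ := exists_desc hπ (trK π.ker f)
      (fun x k hk => trK_add_mem π.ker f x hk)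
    refine ⟨g, ?_, ?_⟩
    · show precomp (Rl ℓ) Qb π g ∈ H
      have : precomp (Rl ℓ) Qb π g = trK π.ker f := funext hg
      rw [this]
      exact hmem
    · rw [hg, hg]
      exact hfne
  hΔ := by
    rw [hΔ_iff_T2]
    intro g hg
    have hf : precomp (Rl ℓ) Qb π g ∈ H := hg
    set f : M → Qb := precomp (Rl ℓ) Qb π g with hfdef
    have hfinv : ∀ x, ∀ k ∈ π.ker, f (x + k) = f x := by
      intro x k hk
      rw [AddMonoidHom.mem_ker] at hk
      show g (π (x + k)) = g (π x)
      rw [map_add, hk, add_zero]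
    have hK := ker_stable (act := act) (act'' := act'') π hπeq
    -- `Δ f ∈ H ⊗ H`
    have h0 : Rep2 H H (addHom ℓ M f) := by
      rw [← mem_T2_iff]
      exact (hΔ_iff_T2.1 hH.hΔ) hf
    -- invariant in the first variable
    have h1 : Rep2 (H ⊓ invAlg ℓ π.ker) H (addHom ℓ M f) := by
      refine hH.rep2_inv π.ker hK H h0 ?_
      intro x y k hk
      show f (x + k + y) = f (x + y)
      rw [add_right_comm, hfinv _ k hk]
    -- swap and do it again
    have h2 : Rep2 H (H ⊓ invAlg ℓ π.ker) (addHom ℓ M f) := by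
      have := h1.swap
      have hsw : (fun p : M × M => addHom ℓ M f (p.2, p.1)) = addHom ℓ M f := by
        funext p
        show f (p.2 + p.1) = f (p.1 + p.2)
        rw [add_comm]
      rwa [hsw] at this
    have h3 : Rep2 (H ⊓ invAlg ℓ π.ker) (H ⊓ invAlg ℓ π.ker) (addHom ℓ M f) := by
      refine hH.rep2_inv π.ker hK _ h2 ?_
      intro x y k hk
      show f (x + k + y) = f (x + y)
      rw [add_right_comm, hfinv _ k hk]
    -- descend
    obtain ⟨ι, _, a, b, hab⟩ := h3
    have hdesc : ∀ h : (H ⊓ invAlg ℓ π.ker : Subalgebra (Rl ℓ) (M → Qb)),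
        ∃ g' : M'' → Qb, g' ∈ H.comap (precomp (Rl ℓ) Qb π) ∧ ∀ x, g' (π x) = (h : M → Qb) x := by
      intro h
      obtain ⟨g', hg'⟩ := exists_desc hπ (h : M → Qb) (fun x k hk => h.2.2 x k hk)
      refine ⟨g', ?_, hg'⟩
      show precomp (Rl ℓ) Qb π g' ∈ H
      have : precomp (Rl ℓ) Qb π g' = (h : M → Qb) := funext hg'
      rw [this]
      exact h.2.1
    choose d hd hd' using hdesc
    rw [Subalgebra.mem_comap, mem_T2_iff]
    refine ⟨ι, inferInstance, fun i => ⟨d (a i), hd (a i)⟩, fun i => ⟨d (b i), hd (b i)⟩, ?_⟩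
    intro z z'
    obtain ⟨x, rfl⟩ := hπ z
    obtain ⟨y, rfl⟩ := hπ z'
    show g (π x + π y) = _
    rw [← map_add]
    have := hab x y
    rw [show addHom ℓ M f (x, y) = g (π (x + y)) from rfl] at this
    rw [this]
    refine Finset.sum_congr rfl fun i _ => ?_
    show _ = d (a i) (π x) * d (b i) (π y)
    rw [hd', hd']

end Quot

end Fermat.Agent.GH.Closure
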