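/-
GATE-H, node S19-CLOSURE (helper57): MAIN EXPORT.

`HasFinOrder ℓ act` := `M` carries a Δ-stable order `H` (helper5's N0 binders `heq/hint/hsep/hΔ`,
structure `IsDeltaOrder`) which is a finite ℤ_(ℓ)-module.  It is closed under
* `HasFinOrder.of_injective`  : equivariant injective additive maps `N ↪ M` (Galois-stable
                                subgroups, isomorphic copies);
* `HasFinOrder.of_surjective` : equivariant surjections `M ↠ M''` (quotients by Galois-stable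
                                subgroups), `M` finite;
* `HasFinOrder.prod`          : products.
`HasFinOrder.hasOrder` forgets the finiteness (input of N0 `hopf_of_order`).
-/
import Fermat.Agent.GH.Closure.Quot

set_option autoImplicit false
set_option linter.unusedSectionVars false
set_option linter.unusedVariables false

noncomputable section

namespace Fermat.Agent.GH.Closure

open GaloisRep Module

local notation "Qb" => AlgebraicClosure ℚ
local notation "GQ" => (AlgebraicClosure ℚ ≃ₐ[ℚ] AlgebraicClosure ℚ)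

section Finite

variable {ℓ : ℕ} [Fact ℓ.Prime] {X Y : Type*}

theorem finite_map (H : Subalgebra (Rl ℓ) (X → Qb)) [Module.Finite (Rl ℓ) H]
    (φ : (X → Qb) →ₐ[Rl ℓ] (Y → Qb)) : Module.Finite (Rl ℓ) (H.map φ) := by
  let f : H →ₗ[Rl ℓ] ↥(H.map φ) :=
    LinearMap.codRestrict (Subalgebra.toSubmodule (H.map φ))
      (φ.toLinearMap ∘ₗ (Subalgebra.val H).toLinearMap) (fun h => ⟨h, h.2, rfl⟩)
  refine Module.Finite.of_surjective f ?_
  rintro ⟨_, ⟨x, hx, rfl⟩⟩
  exact ⟨⟨x, hx⟩, rfl⟩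

theorem finite_comap (H : Subalgebra (Rl ℓ) (X → Qb)) [Module.Finite (Rl ℓ) H]
    (φ : (Y → Qb) →ₐ[Rl ℓ] (X → Qb)) (hφ : Function.Injective φ) :
    Module.Finite (Rl ℓ) (H.comap φ) := by
  have : IsNoetherian (Rl ℓ) H := isNoetherian_of_isNoetherianRing_of_finite (Rl ℓ) H
  let g : ↥(H.comap φ) →ₗ[Rl ℓ] H :=
    LinearMap.codRestrict (Subalgebra.toSubmodule H)
      (φ.toLinearMap ∘ₗ (Subalgebra.val (H.comap φ)).toLinearMap) (fun h => h.2)
  refine Module.Finite.of_injective g ?_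
  intro a b hab
  apply Subtype.ext
  apply hφ
  exact congrArg Subtype.val hab

theorem finite_T2 (H : Subalgebra (Rl ℓ) (X → Qb)) (H' : Subalgebra (Rl ℓ) (Y → Qb))
    [Module.Finite (Rl ℓ) H] [Module.Finite (Rl ℓ) H'] : Module.Finite (Rl ℓ) (T2 H H') := by
  have := finite_map H (precomp (Rl ℓ) Qb (Prod.fst : X × Y → X))
  have := finite_map H' (precomp (Rl ℓ) Qb (Prod.snd : X × Y → Y))
  exact Subalgebra.finite_sup _ _

end Finite

section Main

variable (ℓ : ℕ) [Fact ℓ.Prime]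

/-- `M` carries a Δ-stable order which is finite over ℤ_(ℓ). -/
def HasFinOrder {M : Type*} [AddCommGroup M] (act : GQ → M →+ M) : Prop :=
  ∃ H : Subalgebra (Rl ℓ) (M → Qb), IsDeltaOrder ℓ act H ∧ Module.Finite (Rl ℓ) H

variable {ℓ} {M N M'' M₁ M₂ : Type*} [AddCommGroup M] [AddCommGroup N] [AddCommGroup M'']
  [AddCommGroup M₁] [AddCommGroup M₂]
  {act : GQ → M →+ M} {actN : GQ → N →+ N} {act'' : GQ → M'' →+ M''}
  {act₁ : GQ → M₁ →+ M₁} {act₂ : GQ → M₂ →+ M₂}

theorem HasFinOrder.hasOrder (h : HasFinOrder ℓ act) : HasOrder ℓ act :=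
  let ⟨H, hH, _⟩ := h
  ⟨H, hH⟩

/-- **SUB / ISO.** -/
theorem HasFinOrder.of_injective (h : HasFinOrder ℓ act) (j : N →+ M)
    (hj : Function.Injective j) (hjeq : ∀ (σ : GQ) (n : N), j (actN σ n) = act σ (j n)) :
    HasFinOrder ℓ actN := by
  obtain ⟨H, hH, hfin⟩ := h
  exact ⟨_, hH.restrict j hj hjeq, finite_map H _⟩

/-- **QUOTIENT.** -/
theorem HasFinOrder.of_surjective [Finite M] (h : HasFinOrder ℓ act) (π : M →+ M'')
    (hπ : Function.Surjective π) (hπeq : ∀ (σ : GQ) (x : M), π (act σ x) = act'' σ (π x)) :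
    HasFinOrder ℓ act'' := by
  obtain ⟨H, hH, hfin⟩ := h
  exact ⟨_, hH.quot π hπ hπeq, finite_comap H _ (precomp_injective (Rl ℓ) Qb hπ)⟩

/-- **PRODUCT.** -/
theorem HasFinOrder.prod (h₁ : HasFinOrder ℓ act₁) (h₂ : HasFinOrder ℓ act₂) :
    HasFinOrder ℓ (actProd act₁ act₂) := by
  obtain ⟨H₁, hH₁, hfin₁⟩ := h₁
  obtain ⟨H₂, hH₂, hfin₂⟩ := h₂
  exact ⟨_, hH₁.prod hH₂, finite_T2 H₁ H₂⟩

/-- the trivial module. -/
theorem hasFinOrder_of_subsingleton [Subsingleton M] (act : GQ → M →+ M) :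
    HasFinOrder ℓ act := by
  refine ⟨⊥, ⟨?_, ?_, ?_, ?_⟩, inferInstance⟩
  · intro f hf σ x
    obtain ⟨r, rfl⟩ := Algebra.mem_bot.1 hf
    show algebraMap (Rl ℓ) Qb r = σ (algebraMap (Rl ℓ) Qb r)
    have : algebraMap (Rl ℓ) Qb r = algebraMap ℚ Qb (r : ℚ) := rfl
    rw [this, AlgEquiv.commutes]
  · intro f hf x
    obtain ⟨r, rfl⟩ := Algebra.mem_bot.1 hf
    exact isIntegral_algebraMap
  · intro x y hxy
    exact absurd (Subsingleton.elim x y) hxy
  · intro f hf
    refine ⟨1, fun _ => ⟨f, hf⟩, fun _ => 1, fun x y => ?_⟩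
    rw [Subsingleton.elim (x + y) x]
    simp

end Main

end Fermat.Agent.GH.Closure
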