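import Mathlib

/-!
# GATE-H node A : the closure device (Mathlib only, hypothesis form)

`K` a field, `A : ValuationSubring K`, `v := A.valuation`, `Z` a finite set and
`B : Subalgebra A (Z → K)` an `A`-algebra of `A`-valued functions on `Z` (`hval`) separating the
points of `Z` (`hsep`).  Then

* (A1) `exists_conductor` : some `ϖ ≠ 0` of `A` multiplies ALL `A`-valued functions into `B`;
* (A2) `mem_of_approx`, `mem_of_dense` : `B` is closed under uniform approximation;
* (A3) `pinv_mem` : pointwise inverses of pointwise units of `B` are in `B` (no `hsep`);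
* (A4) `det_mem`, `det_fun_apply`, `minorVec`, `minor_mulVec` : Cramer with minors;
* (A5) `eval_mem`, `eval_mem_const` : values of convergent power series at `m`-valued `τ ∈ B`;
* (A6) `root_mem` : an `m`-valued approximate root `s` of power series with coefficients in `B`
  and pointwise unit linear coefficient lies in `B` (chord iteration, polynomial iterates).

`harch` is the rank-one (archimedean) property of the value group, in the only form used.
-/

set_option autoImplicit false

namespace Fermat.Agent.GH.Closure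

open Finset

section Basic

variable {K : Type*} [Field K] (A : ValuationSubring K) {Z : Type*}

/-- constant functions with value in `A` lie in any `A`-subalgebra of `Z → K`. -/
theorem const_mem (B : Subalgebra A (Z → K)) {a : K} (ha : a ∈ A) :
    (fun _ : Z => a) ∈ B := by
  have := B.algebraMap_mem ⟨a, ha⟩
  exact this

/-- scalar multiples: `fun z => a * f z ∈ B` for `a ∈ A`, `f ∈ B`. -/
theorem const_mul_mem (B : Subalgebra A (Z → K)) {a : K} (ha : a ∈ A) {f : Z → K}
    (hf : f ∈ B) : (fun z => a * f z) ∈ B := by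
  have h := B.mul_mem (const_mem A B ha) hf
  exact h

/-- The subalgebra generated by `A`-valued functions is `A`-valued. -/
theorem adjoin_val (S : Set (Z → K)) (hS : ∀ f ∈ S, ∀ z, f z ∈ A) :
    ∀ f ∈ Algebra.adjoin A S, ∀ z, f z ∈ A := by
  intro f hf
  induction hf using Algebra.adjoin_induction with
  | mem x hx => exact hS x hx
  | algebraMap r => intro z; exact r.2
  | add x y _ _ hx hy => intro z; exact A.add_mem _ _ (hx z) (hy z)
  | mul x y _ _ hx hy => intro z; exact A.mul_mem _ _ (hx z) (hy z)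

/-- jointly injective generators give point separation. -/
theorem hsep_adjoin (S : Set (Z → K)) (hinj : ∀ z z', (∀ f ∈ S, f z = f z') → z = z') :
    ∀ z z', z ≠ z' → ∃ f ∈ Algebra.adjoin A S, f z ≠ f z' := by
  intro z z' hzz'
  by_contra hcon
  push Not at hcon
  exact hzz' (hinj z z' fun f hf => hcon f (Algebra.subset_adjoin hf))

/-- **(A1)** the conductor: a nonzero `ϖ ∈ A` with `ϖ · (A-valued functions) ⊆ B`
(Lagrange interpolation with the separating functions). -/
theorem exists_conductor [Finite Z] (B : Subalgebra A (Z → K))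
    (hval : ∀ f ∈ B, ∀ z, f z ∈ A)
    (hsep : ∀ z z', z ≠ z' → ∃ f ∈ B, f z ≠ f z') :
    ∃ ϖ : K, ϖ ≠ 0 ∧ ϖ ∈ A ∧ ∀ φ : Z → K, (∀ z, φ z ∈ A) → (fun z => ϖ * φ z) ∈ B := by
  classical
  have := Fintype.ofFinite Z
  have hsep' : ∀ z z' : Z, ∃ f ∈ B, z ≠ z' → f z ≠ f z' := by
    intro z z'
    by_cases h : z = z'
    · exact ⟨0, B.zero_mem, fun h' => absurd h h'⟩
    · obtain ⟨f, hf, hne⟩ := hsep z z' h
      exact ⟨f, hf, fun _ => hne⟩
  choose F hFB hFne using hsep'
  let e : Z → Z → K := fun z => ∏ z' ∈ univ.erase z, (F z z' - fun _ => F z z' z')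
  have he_mem : ∀ z, e z ∈ B := by
    intro z
    apply Subalgebra.prod_mem
    intro z' _
    exact B.sub_mem (hFB z z') (const_mem A B (hval _ (hFB z z') z'))
  have he_apply : ∀ z w, e z w = ∏ z' ∈ univ.erase z, (F z z' w - F z z' z') := by
    intro z w
    simp only [e, Finset.prod_apply, Pi.sub_apply]
  have he_off : ∀ z w, w ≠ z → e z w = 0 := by
    intro z w hwz
    rw [he_apply]
    apply Finset.prod_eq_zero (i := w)
    · simp [hwz]
    · simp
  let d : Z → K := fun z => e z z
  have hd_ne : ∀ z, d z ≠ 0 := by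
    intro z
    simp only [d, he_apply]
    rw [Finset.prod_ne_zero_iff]
    intro z' hz'
    have : z ≠ z' := by
      rw [Finset.mem_erase] at hz'
      exact fun h => hz'.1 h.symm
    exact sub_ne_zero.mpr (hFne z z' this)
  have hd_mem : ∀ z, d z ∈ A := fun z => hval _ (he_mem z) z
  refine ⟨∏ z, d z, Finset.prod_ne_zero_iff.mpr fun z _ => hd_ne z,
    Subring.prod_mem A.toSubring fun z _ => hd_mem z, ?_⟩
  intro φ hφ
  have key : (fun z => (∏ z, d z) * φ z) =
      ∑ z, (fun w => ((∏ z' ∈ univ.erase z, d z') * φ z) * e z w) := by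
    funext w
    rw [Finset.sum_apply]
    rw [Finset.sum_eq_single w]
    · rw [← Finset.mul_prod_erase univ d (Finset.mem_univ w)]
      simp only [d]
      ring
    · intro z _ hzw
      rw [he_off z w (Ne.symm hzw), mul_zero]
    · intro h; exact absurd (Finset.mem_univ w) h
  rw [key]
  apply Subalgebra.sum_mem
  intro z _
  apply const_mul_mem A B _ (he_mem z)
  apply A.mul_mem _ _ _ (hφ z)
  exact Subring.prod_mem A.toSubring fun z' _ => hd_mem z'

/-- **(A2)** a function within `v ϖ` of an element of `B` is in `B`. -/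
theorem mem_of_approx (B : Subalgebra A (Z → K)) {ϖ : K} (hϖ : ϖ ≠ 0)
    (hcond : ∀ φ : Z → K, (∀ z, φ z ∈ A) → (fun z => ϖ * φ z) ∈ B)
    {b φ : Z → K} (hb : b ∈ B)
    (happ : ∀ z, A.valuation (φ z - b z) ≤ A.valuation ϖ) : φ ∈ B := by
  have hpos : 0 < A.valuation ϖ := zero_lt_iff.mpr ((map_ne_zero _).mpr hϖ)
  have h1 : (fun z => ϖ * ((φ z - b z) / ϖ)) ∈ B := by
    apply hcond
    intro z
    rw [← A.valuation_le_one_iff, map_div₀, div_le_one₀ hpos]
    exact happ z
  have h2 : φ = b + fun z => ϖ * ((φ z - b z) / ϖ) := by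
    funext z
    simp only [Pi.add_apply]
    field_simp
    ring
  rw [h2]
  exact B.add_mem hb h1

/-- **(A3)** pointwise inverses of pointwise units (via the polynomial `∏ (X - b z)`). -/
theorem pinv_mem [Finite Z] (B : Subalgebra A (Z → K)) {b : Z → K} (hb : b ∈ B)
    (hunit : ∀ z, A.valuation (b z) = 1) : (fun z => (b z)⁻¹) ∈ B := by
  classical
  have := Fintype.ofFinite Z
  have hbA : ∀ z, b z ∈ A := fun z => (A.valuation_le_one_iff _).mp (hunit z).le
  let a : Z → A := fun z => ⟨b z, hbA z⟩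
  let P : Polynomial A := ∏ z, (Polynomial.X - Polynomial.C (a z))
  have hP0 : Polynomial.aeval b P = 0 := by
    funext w
    have h1 : (Polynomial.aeval b P) w = Polynomial.aeval (b w) P := by
      have := Polynomial.aeval_algHom_apply (Pi.evalAlgHom A (fun _ : Z => K) w) b P
      simpa using this.symm
    rw [h1]
    simp only [P, map_prod, map_sub, Polynomial.aeval_X, Polynomial.aeval_C, Pi.zero_apply]
    apply Finset.prod_eq_zero (Finset.mem_univ w)
    simp only [a]
    exact sub_self _
  set u : A := P.coeff 0 with hu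
  have hu_eq : (u : K) = ∏ z, (-(b z)) := by
    rw [hu, Polynomial.coeff_zero_eq_eval_zero]
    simp only [P, Polynomial.eval_prod, Polynomial.eval_sub, Polynomial.eval_X,
      Polynomial.eval_C, zero_sub]
    push_cast
    simp [a]
  have hu_val : A.valuation (u : K) = 1 := by
    rw [hu_eq, map_prod]
    apply Finset.prod_eq_one
    intro z _
    rw [Valuation.map_neg]
    exact hunit z
  have hu_ne : (u : K) ≠ 0 := by
    intro h
    rw [h, map_zero] at hu_val
    exact zero_ne_one hu_val
  have huinv : (-(u : K)⁻¹) ∈ A := by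
    rw [← A.valuation_le_one_iff, Valuation.map_neg, map_inv₀, hu_val, inv_one]
  set q : Z → K := Polynomial.aeval b P.divX with hq
  have hq_mem : q ∈ B := by
    have := Subalgebra.aeval_coe B (⟨b, hb⟩ : B) P.divX
    rw [hq]
    simp only at this
    rw [this]
    exact Subtype.coe_prop _
  have hrel : ∀ w, q w * b w + (u : K) = 0 := by
    intro w
    have h0 := congrArg (Polynomial.aeval b) (Polynomial.divX_mul_X_add P)
    rw [hP0, map_add, map_mul, Polynomial.aeval_X, Polynomial.aeval_C] at h0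
    have h1 := congrFun h0 w
    simpa using h1
  have hfin : (fun z => (b z)⁻¹) = fun z => (-(u : K)⁻¹) * q z := by
    funext z
    have hbz : b z ≠ 0 := by
      intro h
      have := hunit z
      rw [h, map_zero] at this
      exact zero_ne_one this
    have := hrel z
    apply inv_eq_of_mul_eq_one_right
    have h4 : q z * b z = -(u : K) := by linear_combination this
    calc b z * (-(u : K)⁻¹ * q z) = -(u : K)⁻¹ * (q z * b z) := by ring
      _ = 1 := by rw [h4]; field_simp
  rw [hfin]
  exact const_mul_mem A B huinv hq_mem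

end Basic

section Det

variable {K : Type*} [Field K] (A : ValuationSubring K) {Z : Type*}

/-- **(A4a)** determinants of matrices with entries in `B` lie in `B`. -/
theorem det_mem {n : Type*} [Fintype n] [DecidableEq n] (B : Subalgebra A (Z → K))
    (M : Matrix n n (Z → K)) (hM : ∀ i j, M i j ∈ B) : M.det ∈ B := by
  rw [Matrix.det_apply]
  apply Subalgebra.sum_mem
  intro σ _
  apply Subalgebra.zsmul_mem
  apply Subalgebra.prod_mem
  intro i _
  exact hM _ _

/-- pointwise formula for the determinant of a matrix of functions. -/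
theorem det_fun_apply {n : Type*} [Fintype n] [DecidableEq n]
    (M : Matrix n n (Z → K)) (z : Z) : M.det z = (Matrix.of fun i j => M i j z).det := by
  have := RingHom.map_det (Pi.evalRingHom (fun _ : Z => K) z) M
  rw [Pi.evalRingHom_apply] at this
  rw [this]
  rfl

end Det

section Minor

variable {R : Type*} [CommRing R]

/-- the signed maximal minors of an `r × (r+1)` matrix. -/
def minorVec {r : ℕ} (M : Matrix (Fin r) (Fin (r + 1)) R) : Fin (r + 1) → R :=
  fun j => (-1) ^ (j : ℕ) * (M.submatrix id j.succAbove).det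

/-- **(A4b)** the vector of signed maximal minors is in the kernel. -/
theorem minor_mulVec {r : ℕ} (M : Matrix (Fin r) (Fin (r + 1)) R) (i : Fin r) :
    ∑ j, M i j * minorVec M j = 0 := by
  let N : Matrix (Fin (r + 1)) (Fin (r + 1)) R :=
    Matrix.of fun a b => Fin.cases (M i b) (fun a' => M a' b) a
  have hN0 : N.det = 0 := by
    apply Matrix.det_zero_of_row_eq (i := 0) (j := i.succ) (Fin.succ_ne_zero i).symm
    funext j
    simp [N]
  rw [Matrix.det_succ_row_zero] at hN0
  rw [← hN0]
  apply Finset.sum_congr rfl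
  intro j _
  have h1 : N 0 j = M i j := by simp [N]
  have h2 : N.submatrix Fin.succ j.succAbove = M.submatrix id j.succAbove := by
    ext a b
    simp [N]
  rw [h1, h2, minorVec]
  ring

end Minor

section Val

variable {K : Type*} [Field K] {Γ : Type*} [LinearOrderedCommGroupWithZero Γ] (v : Valuation K Γ)

theorem val_pow_sub_pow_le {x y : K} (hx : v x ≤ 1) (hy : v y ≤ 1) (k : ℕ) :
    v (x ^ k - y ^ k) ≤ v (x - y) := by
  induction k with
  | zero => simp
  | succ k ih =>
    have h : x ^ (k + 1) - y ^ (k + 1) = x * (x ^ k - y ^ k) + (x - y) * y ^ k := by ring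
    rw [h]
    apply v.map_add_le
    · rw [map_mul]
      calc v x * v (x ^ k - y ^ k) ≤ 1 * v (x - y) := mul_le_mul' hx ih
        _ = _ := one_mul _
    · rw [map_mul, map_pow]
      calc v (x - y) * v y ^ k ≤ v (x - y) * 1 := mul_le_mul' le_rfl (pow_le_one' hy k)
        _ = _ := mul_one _

theorem val_pow_sub_pow_le_mul {x y : K} {r : Γ} (hr : r ≤ 1) (hx : v x ≤ r) (hy : v y ≤ r)
    (k : ℕ) : v (x ^ (k + 2) - y ^ (k + 2)) ≤ v (x - y) * r := by
  have hx1 := hx.trans hr
  have hy1 := hy.trans hr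
  have h : x ^ (k + 2) - y ^ (k + 2) =
      x * (x ^ (k + 1) - y ^ (k + 1)) + (x - y) * y ^ (k + 1) := by ring
  rw [h]
  apply v.map_add_le
  · rw [map_mul, mul_comm]
    exact mul_le_mul' (val_pow_sub_pow_le v hx1 hy1 _) hx
  · rw [map_mul, map_pow, pow_succ]
    calc v (x - y) * (v y ^ k * v y) ≤ v (x - y) * (1 * r) :=
          mul_le_mul' le_rfl (mul_le_mul' (pow_le_one' hy1 k) hy)
      _ = _ := by rw [one_mul]

/-- one step of the chord (simplified Newton) iteration. -/
theorem val_newton_step (n : ℕ) (a : ℕ → K) (ha : ∀ i, v (a i) ≤ 1) (ha1 : v (a 1) = 1)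
    {x y : K} {r ρ δ : Γ} (hr : r ≤ 1) (hx : v x ≤ r) (hy : v y ≤ r) (hxy : v (y - x) ≤ δ)
    (hε : v (∑ i ∈ range (n + 2), a i * x ^ i) ≤ ρ) :
    v (-(a 1)⁻¹ * (a 0 + ∑ i ∈ range n, a (i + 2) * y ^ (i + 2)) - x) ≤ max ρ (δ * r) := by
  have ha1ne : a 1 ≠ 0 := by
    intro h
    rw [h, map_zero] at ha1
    exact zero_ne_one ha1
  have hid : -(a 1)⁻¹ * (a 0 + ∑ i ∈ range n, a (i + 2) * y ^ (i + 2)) - x
      = (a 1)⁻¹ * (-(∑ i ∈ range (n + 2), a i * x ^ i)
          + ∑ i ∈ range n, a (i + 2) * (x ^ (i + 2) - y ^ (i + 2))) := by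
    rw [Finset.sum_range_succ' _ (n + 1), Finset.sum_range_succ' _ n]
    simp only [mul_sub, Finset.sum_sub_distrib]
    field_simp
    ring
  rw [hid, map_mul, map_inv₀, ha1, inv_one, one_mul]
  apply v.map_add_le
  · rw [Valuation.map_neg]
    exact hε.trans (le_max_left _ _)
  · apply v.map_sum_le
    intro i _
    rw [map_mul]
    refine le_trans ?_ (le_max_right _ _)
    calc v (a (i + 2)) * v (x ^ (i + 2) - y ^ (i + 2))
        ≤ 1 * (v (x - y) * r) := mul_le_mul' (ha _) (val_pow_sub_pow_le_mul v hr hx hy i)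
      _ = v (y - x) * r := by rw [one_mul, Valuation.map_sub_swap]
      _ ≤ δ * r := mul_le_mul' hxy le_rfl

end Val

section Main

variable {K : Type*} [Field K] (A : ValuationSubring K) {Z : Type*} [Finite Z]

/-- **(A2')** `B` is closed under uniform approximation. -/
theorem mem_of_dense (B : Subalgebra A (Z → K))
    (hval : ∀ f ∈ B, ∀ z, f z ∈ A)
    (hsep : ∀ z z', z ≠ z' → ∃ f ∈ B, f z ≠ f z') {φ : Z → K}
    (happ : ∀ y : K, y ≠ 0 → ∃ b ∈ B, ∀ z, A.valuation (φ z - b z) ≤ A.valuation y) :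
    φ ∈ B := by
  obtain ⟨ϖ, hϖ, -, hcond⟩ := exists_conductor A B hval hsep
  obtain ⟨b, hb, hbz⟩ := happ ϖ hϖ
  exact mem_of_approx A B hϖ hcond hb hbz

/-- uniform exponent: under `harch`, a finite family of elements of valuation `< 1` has a
common power below any given nonzero element. -/
theorem exists_pow_le
    (harch : ∀ x y : K, A.valuation x < 1 → y ≠ 0 → ∃ n : ℕ, A.valuation x ^ n ≤ A.valuation y)
    {τ : Z → K} (hτ : ∀ z, A.valuation (τ z) < 1) {y : K} (hy : y ≠ 0) :
    ∃ N : ℕ, ∀ n, N ≤ n → ∀ z, A.valuation (τ z) ^ n ≤ A.valuation y := by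
  classical
  have := Fintype.ofFinite Z
  choose m hm using fun z => harch (τ z) y (hτ z) hy
  refine ⟨∑ z, m z, fun n hn z => ?_⟩
  have h1 : m z ≤ n :=
    (Finset.single_le_sum (f := m) (fun _ _ => Nat.zero_le _) (Finset.mem_univ z)).trans hn
  exact (pow_le_pow_right_of_le_one' (hτ z).le h1).trans (hm z)

/-- **(A5)** `φ` is approximated to every order `τ ^ n` by polynomials in `τ ∈ B` (`m`-valued)
with coefficients in `B` ⟹ `φ ∈ B`. -/
theorem eval_mem (B : Subalgebra A (Z → K))
    (hval : ∀ f ∈ B, ∀ z, f z ∈ A)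
    (hsep : ∀ z z', z ≠ z' → ∃ f ∈ B, f z ≠ f z')
    (harch : ∀ x y : K, A.valuation x < 1 → y ≠ 0 → ∃ n : ℕ, A.valuation x ^ n ≤ A.valuation y)
    {τ : Z → K} (hτB : τ ∈ B) (hτ : ∀ z, A.valuation (τ z) < 1) {φ : Z → K}
    (hφ : ∀ n : ℕ, ∃ γ : ℕ → Z → K, (∀ i, γ i ∈ B) ∧
      ∀ z, A.valuation (φ z - ∑ i ∈ range n, γ i z * τ z ^ i) ≤ A.valuation (τ z) ^ n) :
    φ ∈ B := by
  apply mem_of_dense A B hval hsep
  intro y hy
  obtain ⟨N, hN⟩ := exists_pow_le A harch hτ hy
  obtain ⟨γ, hγ, hγz⟩ := hφ N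
  refine ⟨∑ i ∈ range N, γ i * τ ^ i, ?_, fun z => ?_⟩
  · exact Subalgebra.sum_mem _ fun i _ => B.mul_mem (hγ i) (B.pow_mem hτB i)
  · have : (∑ i ∈ range N, γ i * τ ^ i) z = ∑ i ∈ range N, γ i z * τ z ^ i := by
      simp [Finset.sum_apply]
    rw [this]
    exact (hγz z).trans (hN N le_rfl z)

/-- **(A5c)** the same with constant coefficients `γ i ∈ A` (a power series of `A[[T]]`
evaluated at `τ`). -/
theorem eval_mem_const (B : Subalgebra A (Z → K))
    (hval : ∀ f ∈ B, ∀ z, f z ∈ A)
    (hsep : ∀ z z', z ≠ z' → ∃ f ∈ B, f z ≠ f z')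
    (harch : ∀ x y : K, A.valuation x < 1 → y ≠ 0 → ∃ n : ℕ, A.valuation x ^ n ≤ A.valuation y)
    {τ : Z → K} (hτB : τ ∈ B) (hτ : ∀ z, A.valuation (τ z) < 1) {φ : Z → K}
    (hφ : ∀ n : ℕ, ∃ γ : ℕ → K, (∀ i, γ i ∈ A) ∧
      ∀ z, A.valuation (φ z - ∑ i ∈ range n, γ i * τ z ^ i) ≤ A.valuation (τ z) ^ n) :
    φ ∈ B := by
  apply eval_mem A B hval hsep harch hτB hτ
  intro n
  obtain ⟨γ, hγ, hγz⟩ := hφ n
  exact ⟨fun i _ => γ i, fun i => const_mem A B (hγ i), hγz⟩

/-- **(A6)** an `m`-valued function `s` which is, to every order `s ^ n`, a root of a polynomial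
`∑ c i · s ^ i` with coefficients `c i ∈ B` and `c 1` a pointwise unit, lies in `B`. -/
theorem root_mem (B : Subalgebra A (Z → K))
    (hval : ∀ f ∈ B, ∀ z, f z ∈ A)
    (hsep : ∀ z z', z ≠ z' → ∃ f ∈ B, f z ≠ f z')
    (harch : ∀ x y : K, A.valuation x < 1 → y ≠ 0 → ∃ n : ℕ, A.valuation x ^ n ≤ A.valuation y)
    {s : Z → K} (hs : ∀ z, A.valuation (s z) < 1)
    (hT : ∀ n : ℕ, ∃ c : ℕ → Z → K, (∀ i, c i ∈ B) ∧ (∀ z, A.valuation (c 1 z) = 1) ∧
      ∀ z, A.valuation (∑ i ∈ range n, c i z * s z ^ i) ≤ A.valuation (s z) ^ n) :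
    s ∈ B := by
  apply mem_of_dense A B hval hsep
  intro y hy
  obtain ⟨N, hN⟩ := exists_pow_le A harch hs hy
  obtain ⟨c, hcB, hc1, hcz⟩ := hT (N + 2)
  -- the chord iteration
  let σ : ℕ → Z → K := fun k => Nat.rec (motive := fun _ => Z → K) 0
    (fun _ f => fun z => -(c 1 z)⁻¹ * (c 0 z + ∑ i ∈ range N, c (i + 2) z * f z ^ (i + 2))) k
  have hσ0 : σ 0 = 0 := rfl
  have hσs : ∀ k, σ (k + 1) =
      fun z => -(c 1 z)⁻¹ * (c 0 z + ∑ i ∈ range N, c (i + 2) z * σ k z ^ (i + 2)) :=
    fun _ => rfl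
  have hσB : ∀ k, σ k ∈ B := by
    intro k
    induction k with
    | zero => rw [hσ0]; exact B.zero_mem
    | succ k ih =>
      have h1 : σ (k + 1) =
          (-fun z => (c 1 z)⁻¹) * (c 0 + ∑ i ∈ range N, c (i + 2) * σ k ^ (i + 2)) := by
        rw [hσs]
        funext z
        simp [Finset.sum_apply]
      rw [h1]
      refine B.mul_mem (B.neg_mem (pinv_mem A B (hcB 1) hc1)) (B.add_mem (hcB 0) ?_)
      exact Subalgebra.sum_mem _ fun i _ => B.mul_mem (hcB _) (B.pow_mem ih _)
  -- pointwise convergence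
  have hconv : ∀ k z, A.valuation (σ k z - s z) ≤
      max (A.valuation (s z) ^ (N + 2)) (A.valuation (s z) ^ (k + 1)) := by
    intro k z
    induction k with
    | zero =>
      rw [hσ0]
      simp only [Pi.zero_apply, zero_sub, Valuation.map_neg, zero_add, pow_one]
      exact le_max_right _ _
    | succ k ih =>
      have hr1 : A.valuation (s z) ≤ 1 := (hs z).le
      have hδr : max (A.valuation (s z) ^ (N + 2)) (A.valuation (s z) ^ (k + 1)) ≤
          A.valuation (s z) := by
        apply max_le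
        · calc A.valuation (s z) ^ (N + 2) ≤ A.valuation (s z) ^ 1 :=
              pow_le_pow_right_of_le_one' hr1 (by omega)
            _ = _ := pow_one _
        · calc A.valuation (s z) ^ (k + 1) ≤ A.valuation (s z) ^ 1 :=
              pow_le_pow_right_of_le_one' hr1 (by omega)
            _ = _ := pow_one _
      have hy' : A.valuation (σ k z) ≤ A.valuation (s z) := by
        have : σ k z = (σ k z - s z) + s z := by ring
        rw [this]
        exact (A.valuation).map_add_le (ih.trans hδr) le_rfl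
      have hstep := val_newton_step A.valuation N (fun i => c i z)
        (fun i => (A.valuation_le_one_iff _).mpr (hval _ (hcB i) z)) (hc1 z)
        hr1 le_rfl hy' le_rfl (hcz z)
      rw [hσs]
      refine hstep.trans (max_le (le_max_left _ _) ?_)
      rcases le_max_iff.mp ih with h | h
      · refine le_trans ?_ (le_max_left _ _)
        calc A.valuation (σ k z - s z) * A.valuation (s z)
            ≤ A.valuation (s z) ^ (N + 2) * 1 := mul_le_mul' h hr1
          _ = _ := mul_one _
      · refine le_trans ?_ (le_max_right _ _)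
        calc A.valuation (σ k z - s z) * A.valuation (s z)
            ≤ A.valuation (s z) ^ (k + 1) * A.valuation (s z) := mul_le_mul' h le_rfl
          _ = _ := (pow_succ _ _).symm
  refine ⟨σ (N + 1), hσB (N + 1), fun z => ?_⟩
  rw [Valuation.map_sub_swap]
  refine (hconv (N + 1) z).trans ?_
  rw [max_self]
  exact hN (N + 2) (by omega) z

end Main

end Fermat.Agent.GH.Closure
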