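import Mathlib
import Fermat.Agent.GH.Closure.Device

/-!
# GATE-H node A, part 2 : the closure device WITHOUT point separation

In `AddSpec` (GH/Vocab) the finite set `Z` carries arbitrary families, so the algebra `B`
generated by the coordinates need not separate the points of `Z`.  Everything in `Device.lean`
that used `hsep` holds without it, provided the target function is constant on the fibres of
`B` (`hfac`), and for the analytic statements (`eval_mem`, `root_mem`, gauge approximation)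
`hfac` is AUTOMATIC.  Proof: pass to the quotient of `Z` by the fibres of `B`.

* `mem_of_dense_fac`  : `mem_of_dense` with `hfac` instead of `hsep`;
* `mem_of_gauge'`     : `φ` approximated by elements of `B` to every order `ρ ^ n`, `ρ` an
  `m`-valued gauge ⟹ `φ ∈ B` (no `hsep`, no `hfac`);
* `exists_gauge`      : a common gauge for finitely many `m`-valued functions;
* `mem_of_gauge_family'` : the same for the gauge `max_j |τ j|` of a finite family (several variables);
* `eval_mem'`, `eval_mem_const'`, `root_mem'` : hsep-free versions of (A5), (A6);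
* `minorVec_mem`, `minorVec_fun_apply` : the minors of a matrix with entries in `B`.
-/

set_option autoImplicit false

namespace Fermat.Agent.GH.Closure

open Finset

section Fac

variable {K : Type*} [Field K] (A : ValuationSubring K) {Z : Type*}

/-- pull-back of functions along `π : Z → Z'` as an `A`-algebra homomorphism. -/
def pullAlgHom {Z' : Type*} (π : Z → Z') : (Z' → K) →ₐ[A] (Z → K) where
  toFun g := g ∘ π
  map_one' := rfl
  map_mul' _ _ := rfl
  map_zero' := rfl
  map_add' _ _ := rfl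
  commutes' _ := rfl

/-- the fibres of `B`. -/
def fibreSetoid (B : Subalgebra A (Z → K)) : Setoid Z where
  r z z' := ∀ f ∈ B, f z = f z'
  iseqv := ⟨fun _ _ _ => rfl, fun h f hf => (h f hf).symm,
    fun h h' f hf => (h f hf).trans (h' f hf)⟩

variable [Finite Z]

/-- **(A2'')** `mem_of_dense` without point separation: it suffices that `φ` is constant on the
fibres of `B`. -/
theorem mem_of_dense_fac (B : Subalgebra A (Z → K))
    (hval : ∀ f ∈ B, ∀ z, f z ∈ A) {φ : Z → K}
    (hfac : ∀ z z', (∀ f ∈ B, f z = f z') → φ z = φ z')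
    (happ : ∀ y : K, y ≠ 0 → ∃ b ∈ B, ∀ z, A.valuation (φ z - b z) ≤ A.valuation y) :
    φ ∈ B := by
  classical
  let s : Setoid Z := fibreSetoid A B
  let π : Z → Quotient s := Quotient.mk s
  let B' : Subalgebra A (Quotient s → K) := B.comap (pullAlgHom A π)
  have hmem : ∀ g : Quotient s → K, g ∈ B' ↔ g ∘ π ∈ B := fun g => Iff.rfl
  have hlift : ∀ f ∈ B, ∃ g ∈ B', g ∘ π = f := by
    intro f hf
    refine ⟨Quotient.lift f (fun a b (h : ∀ f ∈ B, f a = f b) => h f hf), ?_, ?_⟩
    · rw [hmem]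
      exact hf
    · rfl
  have hval' : ∀ g ∈ B', ∀ z, g z ∈ A := by
    intro g hg z
    obtain ⟨z, rfl⟩ := Quotient.exists_rep z
    exact hval _ ((hmem g).mp hg) z
  have hsep' : ∀ z z' : Quotient s, z ≠ z' → ∃ g ∈ B', g z ≠ g z' := by
    intro z z' hzz'
    obtain ⟨z, rfl⟩ := Quotient.exists_rep z
    obtain ⟨z', rfl⟩ := Quotient.exists_rep z'
    have hnot : ¬ (∀ f ∈ B, f z = f z') := fun h => hzz' (Quotient.sound h)
    push Not at hnot
    obtain ⟨f, hf, hne⟩ := hnot
    obtain ⟨g, hg, hgf⟩ := hlift f hf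
    refine ⟨g, hg, ?_⟩
    have h1 : g (Quotient.mk s z) = f z := congrFun hgf z
    have h2 : g (Quotient.mk s z') = f z' := congrFun hgf z'
    rw [h1, h2]
    exact hne
  let φ' : Quotient s → K := Quotient.lift φ (fun a b (h : ∀ f ∈ B, f a = f b) => hfac a b h)
  have hφ' : φ' ∈ B' := by
    apply mem_of_dense A B' hval' hsep'
    intro y hy
    obtain ⟨b, hb, hbz⟩ := happ y hy
    obtain ⟨g, hg, hgb⟩ := hlift b hb
    refine ⟨g, hg, fun z => ?_⟩
    obtain ⟨z, rfl⟩ := Quotient.exists_rep z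
    have h1 : g (Quotient.mk s z) = b z := congrFun hgb z
    rw [h1]
    exact hbz z
  exact (hmem φ').mp hφ'

omit [Finite Z] in
/-- dense approximability forces constancy on the fibres of `B`, for `m`-valued differences. -/
theorem fac_of_dense (B : Subalgebra A (Z → K)) {φ : Z → K}
    (happ : ∀ y : K, y ≠ 0 → ∃ b ∈ B, ∀ z, A.valuation (φ z - b z) ≤ A.valuation y)
    {z z' : Z} (hzz' : ∀ f ∈ B, f z = f z') (hsmall : A.valuation (φ z - φ z') < 1) :
    φ z = φ z' := by
  by_contra hne
  have hd : φ z - φ z' ≠ 0 := sub_ne_zero.mpr hne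
  obtain ⟨b, hb, hbz⟩ := happ ((φ z - φ z') * (φ z - φ z')) (mul_ne_zero hd hd)
  have h1 : φ z - φ z' = (φ z - b z) - (φ z' - b z') := by
    rw [hzz' b hb]; ring
  have h2 : A.valuation (φ z - φ z') ≤ A.valuation ((φ z - φ z') * (φ z - φ z')) := by
    conv_lhs => rw [h1]
    exact (A.valuation).map_sub_le (hbz z) (hbz z')
  rw [map_mul] at h2
  have hpos : 0 < A.valuation (φ z - φ z') := zero_lt_iff.mpr ((map_ne_zero _).mpr hd)
  have h3 : A.valuation (φ z - φ z') * A.valuation (φ z - φ z') <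
      A.valuation (φ z - φ z') * 1 := by
    exact mul_lt_mul_of_pos_left hsmall hpos
  rw [mul_one] at h3
  exact absurd h2 (not_le.mpr h3)

/-- **(A2g)** approximation to every order of an `m`-valued gauge `ρ` (not nec. in `B`) by
elements of `B`: no `hsep`, no `hfac`. -/
theorem mem_of_gauge' (B : Subalgebra A (Z → K))
    (hval : ∀ f ∈ B, ∀ z, f z ∈ A)
    (harch : ∀ x y : K, A.valuation x < 1 → y ≠ 0 → ∃ n : ℕ, A.valuation x ^ n ≤ A.valuation y)
    {ρ : Z → K} (hρ : ∀ z, A.valuation (ρ z) < 1) {φ : Z → K}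
    (hφ : ∀ n : ℕ, ∃ b ∈ B, ∀ z, A.valuation (φ z - b z) ≤ A.valuation (ρ z) ^ n) :
    φ ∈ B := by
  have happ : ∀ y : K, y ≠ 0 → ∃ b ∈ B, ∀ z, A.valuation (φ z - b z) ≤ A.valuation y := by
    intro y hy
    obtain ⟨N, hN⟩ := exists_pow_le A harch hρ hy
    obtain ⟨b, hb, hbz⟩ := hφ N
    exact ⟨b, hb, fun z => (hbz z).trans (hN N le_rfl z)⟩
  apply mem_of_dense_fac A B hval _ happ
  intro z z' hzz'
  apply fac_of_dense A B happ hzz'
  obtain ⟨b, hb, hbz⟩ := hφ 1
  have h1 : φ z - φ z' = (φ z - b z) - (φ z' - b z') := by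
    rw [hzz' b hb]; ring
  rw [h1]
  have hz := hbz z
  have hz' := hbz z'
  rw [pow_one] at hz hz'
  rcases le_total (A.valuation (ρ z)) (A.valuation (ρ z')) with h | h
  · exact ((A.valuation).map_sub_le (hz.trans h) hz').trans_lt (hρ z')
  · exact ((A.valuation).map_sub_le hz (hz'.trans h)).trans_lt (hρ z)

omit [Finite Z] in
/-- a common `m`-valued gauge for finitely many `m`-valued functions. -/
theorem exists_gauge {ι : Type*} [Finite ι] (τ : ι → Z → K)
    (hτ : ∀ j z, A.valuation (τ j z) < 1) :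
    ∃ ρ : Z → K, (∀ z, A.valuation (ρ z) < 1) ∧ ∀ j z, A.valuation (τ j z) ≤ A.valuation (ρ z) := by
  classical
  have := Fintype.ofFinite ι
  rcases isEmpty_or_nonempty ι with hι | hι
  · exact ⟨0, fun z => by simp, fun j => (hι.false j).elim⟩
  · have hex : ∀ z, ∃ j, ∀ j', A.valuation (τ j' z) ≤ A.valuation (τ j z) := by
      intro z
      obtain ⟨j, -, hj⟩ := Finset.exists_max_image Finset.univ
        (fun j => A.valuation (τ j z)) Finset.univ_nonempty
      exact ⟨j, fun j' => hj j' (Finset.mem_univ _)⟩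
    choose J hJ using hex
    exact ⟨fun z => τ (J z) z, fun z => hτ _ z, fun j z => hJ z j⟩

/-- **(A2f)** approximation to every order of the gauge `max_j |τ j|` of a finite family of
`m`-valued functions (power series in several variables): no `hsep`, no `hfac`. -/
theorem mem_of_gauge_family' (B : Subalgebra A (Z → K))
    (hval : ∀ f ∈ B, ∀ z, f z ∈ A)
    (harch : ∀ x y : K, A.valuation x < 1 → y ≠ 0 → ∃ n : ℕ, A.valuation x ^ n ≤ A.valuation y)
    {ι : Type*} [Finite ι] (τ : ι → Z → K) (hτ : ∀ j z, A.valuation (τ j z) < 1) {φ : Z → K}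
    (hφ : ∀ n : ℕ, ∃ b ∈ B, ∀ z, ∀ r, (∀ j, A.valuation (τ j z) ≤ r) →
      A.valuation (φ z - b z) ≤ r ^ n) :
    φ ∈ B := by
  obtain ⟨ρ, hρ, hρτ⟩ := exists_gauge A τ hτ
  apply mem_of_gauge' A B hval harch hρ
  intro n
  obtain ⟨b, hb, hbz⟩ := hφ n
  exact ⟨b, hb, fun z => hbz z _ fun j => hρτ j z⟩

omit [Finite Z] in
/-- the signed maximal minors of a matrix with entries in `B` lie in `B`. -/
theorem minorVec_mem (B : Subalgebra A (Z → K)) {r : ℕ}
    (M : Matrix (Fin r) (Fin (r + 1)) (Z → K)) (hM : ∀ i j, M i j ∈ B) (j : Fin (r + 1)) :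
    minorVec M j ∈ B := by
  unfold minorVec
  refine B.mul_mem (B.pow_mem (B.neg_mem B.one_mem) _) ?_
  exact det_mem A B _ fun a b => hM _ _

omit [Finite Z] in
/-- pointwise formula for the minors of a matrix of functions. -/
theorem minorVec_fun_apply {r : ℕ} (M : Matrix (Fin r) (Fin (r + 1)) (Z → K))
    (j : Fin (r + 1)) (z : Z) :
    minorVec M j z = minorVec (Matrix.of fun a b => M a b z) j := by
  unfold minorVec
  rw [Pi.mul_apply, det_fun_apply]
  simp only [Pi.pow_apply, Pi.neg_apply, Pi.one_apply]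
  rfl

/-- **(A5')** `eval_mem` without `hsep`. -/
theorem eval_mem' (B : Subalgebra A (Z → K))
    (hval : ∀ f ∈ B, ∀ z, f z ∈ A)
    (harch : ∀ x y : K, A.valuation x < 1 → y ≠ 0 → ∃ n : ℕ, A.valuation x ^ n ≤ A.valuation y)
    {τ : Z → K} (hτB : τ ∈ B) (hτ : ∀ z, A.valuation (τ z) < 1) {φ : Z → K}
    (hφ : ∀ n : ℕ, ∃ γ : ℕ → Z → K, (∀ i, γ i ∈ B) ∧
      ∀ z, A.valuation (φ z - ∑ i ∈ range n, γ i z * τ z ^ i) ≤ A.valuation (τ z) ^ n) :
    φ ∈ B := by
  apply mem_of_gauge' A B hval harch hτ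
  intro n
  obtain ⟨γ, hγ, hγz⟩ := hφ n
  refine ⟨∑ i ∈ range n, γ i * τ ^ i, ?_, fun z => ?_⟩
  · exact Subalgebra.sum_mem _ fun i _ => B.mul_mem (hγ i) (B.pow_mem hτB i)
  · have : (∑ i ∈ range n, γ i * τ ^ i) z = ∑ i ∈ range n, γ i z * τ z ^ i := by
      simp [Finset.sum_apply]
    rw [this]
    exact hγz z

/-- **(A5c')** `eval_mem_const` without `hsep`. -/
theorem eval_mem_const' (B : Subalgebra A (Z → K))
    (hval : ∀ f ∈ B, ∀ z, f z ∈ A)
    (harch : ∀ x y : K, A.valuation x < 1 → y ≠ 0 → ∃ n : ℕ, A.valuation x ^ n ≤ A.valuation y)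
    {τ : Z → K} (hτB : τ ∈ B) (hτ : ∀ z, A.valuation (τ z) < 1) {φ : Z → K}
    (hφ : ∀ n : ℕ, ∃ γ : ℕ → K, (∀ i, γ i ∈ A) ∧
      ∀ z, A.valuation (φ z - ∑ i ∈ range n, γ i * τ z ^ i) ≤ A.valuation (τ z) ^ n) :
    φ ∈ B := by
  apply eval_mem' A B hval harch hτB hτ
  intro n
  obtain ⟨γ, hγ, hγz⟩ := hφ n
  exact ⟨fun i _ => γ i, fun i => const_mem A B (hγ i), hγz⟩

/-- **(A6')** `root_mem` without `hsep`. -/
theorem root_mem' (B : Subalgebra A (Z → K))
    (hval : ∀ f ∈ B, ∀ z, f z ∈ A)
    (harch : ∀ x y : K, A.valuation x < 1 → y ≠ 0 → ∃ n : ℕ, A.valuation x ^ n ≤ A.valuation y)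
    {s : Z → K} (hs : ∀ z, A.valuation (s z) < 1)
    (hT : ∀ n : ℕ, ∃ c : ℕ → Z → K, (∀ i, c i ∈ B) ∧ (∀ z, A.valuation (c 1 z) = 1) ∧
      ∀ z, A.valuation (∑ i ∈ range n, c i z * s z ^ i) ≤ A.valuation (s z) ^ n) :
    s ∈ B := by
  apply mem_of_gauge' A B hval harch hs
  intro N
  obtain ⟨c, hcB, hc1, hcz⟩ := hT (N + 2)
  -- the chord iteration
  let σ : ℕ → Z → K := fun k => Nat.rec (motive := fun _ => Z → K) 0
    (fun _ f => fun z => -(c 1 z)⁻¹ * (c 0 z + ∑ i ∈ range N, c (i + 2) z * f z ^ (i + 2))) k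
  have hσ0 : σ 0 = 0 := rfl
  have hσs : ∀ k, σ (k + 1) =
      fun z => -(c 1 z)⁻¹ * (c 0 z + ∑ i ∈ range N, c (i + 2) z * σ k z ^ (i + 2)) :=
    fun _ => rfl
  have hσB : ∀ k, σ k ∈ B := by
    intro k
    induction k with
    | zero => rw [hσ0]; exact B.zero_mem
    | succ k ih =>
      have h1 : σ (k + 1) =
          (-fun z => (c 1 z)⁻¹) * (c 0 + ∑ i ∈ range N, c (i + 2) * σ k ^ (i + 2)) := by
        rw [hσs]
        funext z
        simp [Finset.sum_apply]
      rw [h1]
      refine B.mul_mem (B.neg_mem (pinv_mem A B (hcB 1) hc1)) (B.add_mem (hcB 0) ?_)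
      exact Subalgebra.sum_mem _ fun i _ => B.mul_mem (hcB _) (B.pow_mem ih _)
  -- pointwise convergence
  have hconv : ∀ k z, A.valuation (σ k z - s z) ≤
      max (A.valuation (s z) ^ (N + 2)) (A.valuation (s z) ^ (k + 1)) := by
    intro k z
    induction k with
    | zero =>
      rw [hσ0]
      simp only [Pi.zero_apply, zero_sub, Valuation.map_neg, zero_add, pow_one]
      exact le_max_right _ _
    | succ k ih =>
      have hr1 : A.valuation (s z) ≤ 1 := (hs z).le
      have hδr : max (A.valuation (s z) ^ (N + 2)) (A.valuation (s z) ^ (k + 1)) ≤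
          A.valuation (s z) := by
        apply max_le
        · calc A.valuation (s z) ^ (N + 2) ≤ A.valuation (s z) ^ 1 :=
              pow_le_pow_right_of_le_one' hr1 (by omega)
            _ = _ := pow_one _
        · calc A.valuation (s z) ^ (k + 1) ≤ A.valuation (s z) ^ 1 :=
              pow_le_pow_right_of_le_one' hr1 (by omega)
            _ = _ := pow_one _
      have hy' : A.valuation (σ k z) ≤ A.valuation (s z) := by
        have : σ k z = (σ k z - s z) + s z := by ring
        rw [this]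
        exact (A.valuation).map_add_le (ih.trans hδr) le_rfl
      have hstep := val_newton_step A.valuation N (fun i => c i z)
        (fun i => (A.valuation_le_one_iff _).mpr (hval _ (hcB i) z)) (hc1 z)
        hr1 le_rfl hy' le_rfl (hcz z)
      rw [hσs]
      refine hstep.trans (max_le (le_max_left _ _) ?_)
      rcases le_max_iff.mp ih with h | h
      · refine le_trans ?_ (le_max_left _ _)
        calc A.valuation (σ k z - s z) * A.valuation (s z)
            ≤ A.valuation (s z) ^ (N + 2) * 1 := mul_le_mul' h hr1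
          _ = _ := mul_one _
      · refine le_trans ?_ (le_max_right _ _)
        calc A.valuation (σ k z - s z) * A.valuation (s z)
            ≤ A.valuation (s z) ^ (k + 1) * A.valuation (s z) := mul_le_mul' h le_rfl
          _ = _ := (pow_succ _ _).symm
  refine ⟨σ (N + 1), hσB (N + 1), fun z => ?_⟩
  rw [Valuation.map_sub_swap]
  refine (hconv (N + 1) z).trans ?_
  rw [max_self]
  exact pow_le_pow_right_of_le_one' (hs z).le (by omega)

end Fac

end Fermat.Agent.GH.Closure
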