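/-
GATE-H, node S19-CLOSURE (helper57): the consumer form for S32 / FLATMOD.

`HasStableOrder ℓ act` := helper30's N0 binder list (`GH/N0/Final.lean`, `flatShape_of_order`:
`heq / hfg / hsep / hΔ`) as ONE proposition, for a family of PLAIN maps `act σ : M → M`
(additivity, `act σ 0 = 0`, bijectivity are all consequences).

* `HasStableOrder.act_add / act_zero`      : the maps are additive.
* `HasStableOrder.hasFinOrder` / `HasFinOrder.hasStableOrder` : bridge with `HasFinOrder`
                                              (`GH/Closure/Main.lean`, additive-hom form).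
* `HasFinOrder.pi_fin`                     : finite powers `Fin r → M`.
* **`HasStableOrder.subquotPow`**          : closed under helper47's `S32.IsSubquotPow`
                                              (equivariant quotients of stable subgroups of
                                              finite powers), `M` finite.
-/
import Fermat.Agent.GH.Closure.Main
import Fermat.Agent.GH.S32.IsSubquot

set_option autoImplicit false
set_option linter.unusedSectionVars false
set_option linter.unusedVariables false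

noncomputable section

namespace Fermat.Agent.GH.Closure

open GaloisRep Module

local notation "Qb" => AlgebraicClosure ℚ
local notation "GQ" => (AlgebraicClosure ℚ ≃ₐ[ℚ] AlgebraicClosure ℚ)

section Pi

variable {ℓ : ℕ} [Fact ℓ.Prime] {M : Type*} [AddCommGroup M]

/-- the diagonal action on a power. -/
def actPi (ι : Type*) (act : GQ → M →+ M) : GQ → (ι → M) →+ (ι → M) :=
  fun σ => (act σ).compLeft ι

@[simp]
theorem actPi_apply (ι : Type*) (act : GQ → M →+ M) (σ : GQ) (x : ι → M) (i : ι) :
    actPi ι act σ x i = act σ (x i) := rfl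

/-- **POWERS.** -/
theorem HasFinOrder.pi_fin {act : GQ → M →+ M} (h : HasFinOrder ℓ act) :
    ∀ r : ℕ, HasFinOrder ℓ (actPi (Fin r) act)
  | 0 => hasFinOrder_of_subsingleton _
  | r + 1 => by
    have ih := HasFinOrder.pi_fin h r
    let j : (Fin (r + 1) → M) →+ M × (Fin r → M) :=
      { toFun := fun x => (x 0, fun i => x i.succ)
        map_zero' := rfl
        map_add' := fun _ _ => rfl }
    refine (h.prod ih).of_injective j ?_ ?_
    · intro x y hxy
      funext i
      refine Fin.cases ?_ (fun i => ?_) i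
      · exact congrArg Prod.fst hxy
      · exact congrFun (congrArg Prod.snd hxy) i
    · intro σ x
      rfl

/-- powers over any finite index type. -/
theorem HasFinOrder.pi {act : GQ → M →+ M} (h : HasFinOrder ℓ act) (ι : Type*) [Finite ι] :
    HasFinOrder ℓ (actPi ι act) := by
  obtain ⟨n, ⟨e⟩⟩ := Finite.exists_equiv_fin ι
  let j : (ι → M) →+ (Fin n → M) :=
    { toFun := fun x i => x (e.symm i)
      map_zero' := rfl
      map_add' := fun _ _ => rfl }
  refine (h.pi_fin n).of_injective j ?_ ?_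
  · intro x y hxy
    funext i
    have := congrFun hxy (e i)
    simpa [j] using this
  · intro σ x
    rfl

end Pi

section Fun

variable (ℓ : ℕ) [Fact ℓ.Prime]

/-- helper30's N0 binder list (`heq / hfg / hsep / hΔ` of `N0.flatShape_of_order`) as one
proposition, for plain maps `act σ : M → M`. -/
def HasStableOrder {M : Type*} [AddCommGroup M] (act : GQ → M → M) : Prop :=
  ∃ H : Subalgebra (Rl ℓ) (M → Qb),
    (∀ f ∈ H, ∀ (σ : GQ) (x : M), f (act σ x) = σ (f x)) ∧
    Module.Finite (Rl ℓ) H ∧
    (∀ x y : M, x ≠ y → ∃ f ∈ H, f x ≠ f y) ∧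
    (∀ f ∈ H, ∃ (n : ℕ) (a b : Fin n → H), ∀ x y : M,
      f (x + y) = ∑ i, ((a i : M → Qb) x) * ((b i : M → Qb) y))

variable {ℓ} {M M' : Type*} [AddCommGroup M] [AddCommGroup M']

/-- additivity of the maps is a consequence of `heq + hsep + hΔ`. -/
theorem act_add_of_order {act : GQ → M → M} {H : Subalgebra (Rl ℓ) (M → Qb)}
    (heq : ∀ f ∈ H, ∀ (σ : GQ) (x : M), f (act σ x) = σ (f x))
    (hsep : ∀ x y : M, x ≠ y → ∃ f ∈ H, f x ≠ f y)
    (hΔ : ∀ f ∈ H, ∃ (n : ℕ) (a b : Fin n → H), ∀ x y : M,
      f (x + y) = ∑ i, ((a i : M → Qb) x) * ((b i : M → Qb) y))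
    (σ : GQ) (x y : M) : act σ (x + y) = act σ x + act σ y := by
  by_contra hne
  obtain ⟨f, hf, hfne⟩ := hsep _ _ hne
  apply hfne
  obtain ⟨n, a, b, hab⟩ := hΔ f hf
  rw [heq f hf, hab, hab, map_sum]
  refine Finset.sum_congr rfl fun i _ => ?_
  rw [map_mul, heq _ (a i).2, heq _ (b i).2]

theorem HasStableOrder.act_add {act : GQ → M → M} (h : HasStableOrder ℓ act)
    (σ : GQ) (x y : M) : act σ (x + y) = act σ x + act σ y := by
  obtain ⟨H, heq, _, hsep, hΔ⟩ := h
  exact act_add_of_order heq hsep hΔ σ x y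

theorem HasStableOrder.act_zero {act : GQ → M → M} (h : HasStableOrder ℓ act)
    (σ : GQ) : act σ 0 = 0 := by
  have := h.act_add σ 0 0
  rw [add_zero] at this
  exact left_eq_add.mp this

/-- `hint` from `hfg`. -/
theorem isIntegral_apply_of_finite {H : Subalgebra (Rl ℓ) (M → Qb)} [Module.Finite (Rl ℓ) H]
    {f : M → Qb} (hf : f ∈ H) (x : M) : IsIntegral (Rl ℓ) (f x) := by
  have h1 : IsIntegral (Rl ℓ) (⟨f, hf⟩ : H) := Algebra.IsIntegral.isIntegral _
  exact h1.map ((Pi.evalAlgHom (Rl ℓ) (fun _ : M => Qb) x).comp H.val)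

/-- plain-map form ⟹ additive-hom form. -/
theorem HasStableOrder.hasFinOrder {act : GQ → M → M} (h : HasStableOrder ℓ act) :
    ∃ actA : GQ → M →+ M, (∀ σ x, actA σ x = act σ x) ∧ HasFinOrder ℓ actA := by
  have hadd := h.act_add
  obtain ⟨H, heq, hfg, hsep, hΔ⟩ := h
  refine ⟨fun σ => AddMonoidHom.mk' (act σ) (hadd σ), fun σ x => rfl, H, ⟨?_, ?_, hsep, hΔ⟩, hfg⟩
  · intro f hf σ x
    exact heq f hf σ x
  · intro f hf x
    exact isIntegral_apply_of_finite hf x

/-- additive-hom form ⟹ plain-map form. -/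
theorem HasFinOrder.hasStableOrder {actA : GQ → M →+ M} (h : HasFinOrder ℓ actA)
    {act : GQ → M → M} (hact : ∀ σ x, actA σ x = act σ x) : HasStableOrder ℓ act := by
  obtain ⟨H, hH, hfg⟩ := h
  refine ⟨H, ?_, hfg, hH.hsep, hH.hΔ⟩
  intro f hf σ x
  rw [← hact]
  exact hH.heq f hf σ x

theorem hasStableOrder_iff {act : GQ → M → M} :
    HasStableOrder ℓ act ↔
      ∃ actA : GQ → M →+ M, (∀ σ x, actA σ x = act σ x) ∧ HasFinOrder ℓ actA :=
  ⟨fun h => h.hasFinOrder, fun ⟨_, hact, h⟩ => h.hasStableOrder hact⟩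

/-- **SUBQUOTIENTS OF POWERS** (the shape consumed by S32 / FLATMOD): stable orders pass to
equivariant quotients of stable subgroups of finite powers. -/
theorem HasStableOrder.subquotPow [Finite M] {act : GQ → M → M} {act' : GQ → M' → M'}
    (h : HasStableOrder ℓ act) (hsq : S32.IsSubquotPow act act') : HasStableOrder ℓ act' := by
  obtain ⟨actA, hactA, hfin⟩ := h.hasFinOrder
  obtain ⟨r, X₁, f, hf, hst, hfeq⟩ := hsq
  have hpi := hfin.pi_fin r
  -- the action on the stable subgroup
  let actX : GQ → X₁ →+ X₁ := fun σ =>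
    AddMonoidHom.mk' (fun x => ⟨fun i => act σ (x.1 i), hst σ x.1 x.2⟩) (by
      intro a b
      apply Subtype.ext
      funext i
      show act σ ((a + b).1 i) = act σ (a.1 i) + act σ (b.1 i)
      rw [← hactA, ← hactA, ← hactA, AddSubgroup.coe_add, Pi.add_apply, map_add])
  have hX : HasFinOrder ℓ actX := by
    refine hpi.of_injective X₁.subtype X₁.subtype_injective ?_
    intro σ x
    funext i
    exact (hactA σ (x.1 i)).symm
  have hfeq' : ∀ (σ : GQ) (x : X₁), f (actX σ x) = act' σ (f x) := hfeq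
  -- the target maps are additive
  have hadd' : ∀ (σ : GQ) (y₁ y₂ : M'), act' σ (y₁ + y₂) = act' σ y₁ + act' σ y₂ := by
    intro σ y₁ y₂
    obtain ⟨x₁, rfl⟩ := hf y₁
    obtain ⟨x₂, rfl⟩ := hf y₂
    rw [← map_add, ← hfeq', ← hfeq', ← hfeq', map_add (actX σ), map_add f]
  let actA' : GQ → M' →+ M' := fun σ => AddMonoidHom.mk' (act' σ) (hadd' σ)
  have hM' : HasFinOrder ℓ actA' :=
    hX.of_surjective (act'' := actA') f hf (fun σ x => hfeq' σ x)
  exact hM'.hasStableOrder (fun σ x => rfl)

/-- closed under equivariant additive bijections / injections (plain-map form). -/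
theorem HasStableOrder.of_injective {act : GQ → M → M} {act' : GQ → M' → M'}
    (h : HasStableOrder ℓ act) (j : M' →+ M) (hj : Function.Injective j)
    (hjeq : ∀ (σ : GQ) (y : M'), j (act' σ y) = act σ (j y)) : HasStableOrder ℓ act' := by
  obtain ⟨actA, hactA, hfin⟩ := h.hasFinOrder
  have hadd' : ∀ (σ : GQ) (y₁ y₂ : M'), act' σ (y₁ + y₂) = act' σ y₁ + act' σ y₂ := by
    intro σ y₁ y₂
    apply hj
    rw [map_add, hjeq, hjeq, hjeq, map_add, ← hactA, ← hactA, ← hactA, map_add]
  let actA' : GQ → M' →+ M' := fun σ => AddMonoidHom.mk' (act' σ) (hadd' σ)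
  have hM' : HasFinOrder ℓ actA' :=
    hfin.of_injective (actN := actA') j hj (fun σ y => (hjeq σ y).trans (hactA σ (j y)).symm)
  exact hM'.hasStableOrder (fun σ x => rfl)

/-- the trivial module. -/
theorem hasStableOrder_of_subsingleton [Subsingleton M] (act : GQ → M → M) :
    HasStableOrder ℓ act :=
  (hasFinOrder_of_subsingleton (ℓ := ℓ)
    (fun σ => AddMonoidHom.mk' (act σ) (fun a b => Subsingleton.elim _ _))).hasStableOrder
    (fun σ x => rfl)

end Fun

end Fermat.Agent.GH.Closure
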